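/-
S17 / GLOB / Defs   (owner helper17).     ABSTRACT global height machine.

Everything in block GLOB is proved for an abstract datum `HtData 𝒜 X Γ` which packages EXACTLY what the blocks LOC and RAT
export, in LOGARITHMIC form (so that all GLOB proofs are linear arithmetic on finite sums over the places of `ℚ`).

* `Pl = Option Nat.Primes` : the places of `ℚ` (`none` = the archimedean one).
* `AVFam` : one absolute value of `ℚ̄` above each place of `ℚ`.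
* `FS f` : finite support, `Sm f = ∑ᶠ v, f v`.
* `X` : the places of the function field (points of the curve), with the action of `GQ`;  `oo : X`.
* `nx v x = log ‖x~‖_v`,  `lam v x y = - log d_v(x,y)`,  `co x = x~`.
* `Sec e = Fin (dW e) → ℚ` : the rational elements of `W_e = L(e n0 oo)` in the fixed `G`-invariant basis `w_{e,l}`;
  `ev e l x = w_{e,l}(x~)`,  `val e s x = s(x~)`,  `Z e s` = zero divisor of `s` (`= div s + e n0 oo`, a multiset of cardinality `e n0`).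
* `cl Y = [Y - (card Y) oo]`.
IMPORTANT: `oo` is an ORDINARY point for GLOB (divisors may contain it).
-/
import Mathlib
import Fermat.Agent.S17.MK.Defs
import Fermat.Agent.S17.SL.Defs

set_option autoImplicit false

noncomputable section

namespace Fermat.Agent.S17.Glob

abbrev Kb : Type := AlgebraicClosure ℚ
abbrev GQ : Type := Kb ≃ₐ[ℚ] Kb

/-- the places of `ℚ` -/
abbrev Pl : Type := Option Nat.Primes

/-- one absolute value of `ℚ̄` above every place of `ℚ` -/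
structure AVFam where
  av : Pl → AbsoluteValue Kb ℝ
  arch : ∀ x : ℚ, av none (algebraMap ℚ Kb x) = |(x : ℝ)|
  padic : ∀ (p : Nat.Primes) (x : ℚ), av (some p) (algebraMap ℚ Kb x) = (padicNorm (p : ℕ) x : ℝ)
  na : ∀ p : Nat.Primes, IsNonarchimedean (av (some p))
  fin : ∀ x : Kb, x ≠ 0 → {v | av v x ≠ 1}.Finite

/-- finite support -/
def FS (f : Pl → ℝ) : Prop := (Function.support f).Finite

/-- the sum over all places -/
def Sm (f : Pl → ℝ) : ℝ := ∑ᶠ v, f v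

/-- `log max_l v(s_l)` for a rational vector -/
def ns (𝒜 : AVFam) {n : ℕ} (v : Pl) (s : Fin n → ℚ) : ℝ :=
  Real.log (⨆ l, 𝒜.av v (algebraMap ℚ Kb (s l)))

/-- the (projective, logarithmic) height of a rational vector -/
def hs (𝒜 : AVFam) {n : ℕ} (s : Fin n → ℚ) : ℝ := Sm (fun v => ns 𝒜 v s)

/-- `G`-stable multisets -/
def Stab {X : Type} [MulAction GQ X] (Y : Multiset X) : Prop := ∀ σ : GQ, Y.map (fun x => σ • x) = Y

/-- the abstract datum -/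
structure HtData (𝒜 : AVFam) (X : Type) [MulAction GQ X] {J : Type} [AddCommGroup J]
    (Γ : AddSubgroup J) where
  oo : X
  n0 : ℕ
  g : ℕ
  hg : g < n0
  /- local heights -/
  nx : Pl → X → ℝ
  lam : Pl → X → X → ℝ
  nx_nonneg : ∀ v x, 0 ≤ nx v x
  nx_fs : ∀ x, FS (fun v => nx v x)
  lam_symm : ∀ v x y, lam v x y = lam v y x
  lam_fs : ∀ x y, x ≠ y → FS (fun v => lam v x y)
  /- coordinates -/
  r : ℕ
  co : X → Fin r → Kb
  co_smul : ∀ (σ : GQ) x j, σ (co x j) = co (σ • x) j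
  co_inj : Function.Injective co
  co_le : ∀ v x j, 𝒜.av v (co x j) ≤ Real.exp (nx v x)
  /- sections -/
  dW : ℕ → ℕ
  dW_eq : ∀ m, 1 ≤ m → dW m + g = m * n0 + 1
  ev : ∀ e, Fin (dW e) → X → Kb
  ev_smul : ∀ (σ : GQ) e l x, σ (ev e l x) = ev e l (σ • x)
  Z : ∀ e, (Fin (dW e) → ℚ) → Multiset X
  Z_card : ∀ e s, s ≠ 0 → (Z e s).card = e * n0
  Z_stab : ∀ e s, s ≠ 0 → Stab (Z e s)
  mem_Z : ∀ e s x, s ≠ 0 → (x ∈ Z e s ↔ ∑ l, algebraMap ℚ Kb (s l) * ev e l x = 0)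
  /-- (E1) in logarithmic form -/
  e1 : ∀ e, ∃ γ : Pl → ℝ, FS γ ∧ ∀ v s x, s ≠ 0 → x ∉ Z e s →
    |Real.log (𝒜.av v (∑ l, algebraMap ℚ Kb (s l) * ev e l x)) - ns 𝒜 v s - e * nx v x
      + ((Z e s).map (fun t => lam v x t)).sum| ≤ γ v
  /-- the section `1` -/
  one : Fin (dW 1) → ℚ
  one_ne : one ≠ 0
  Z_one : Z 1 one = n0 • {oo}
  /-- the sections `f_r - a` -/
  pa : ℕ → Fin (dW 1) → ℚ
  pa_ne : ∀ a, pa a ≠ 0
  pa_disj : ∀ a b, a ≠ b → Disjoint (Z 1 (pa a)) (Z 1 (pa b))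
  /-- multiplication of sections -/
  mul : ∀ e e', (Fin (dW e) → ℚ) → (Fin (dW e') → ℚ) →ₗ[ℚ] (Fin (dW (e + e')) → ℚ)
  mul_ne : ∀ e e' s w, s ≠ 0 → w ≠ 0 → mul e e' s w ≠ 0
  Z_mul : ∀ e e' s w, s ≠ 0 → w ≠ 0 → Z (e + e') (mul e e' s w) = Z e s + Z e' w
  /-- (MULT), upper bound, logarithmic form -/
  mult : ∀ e e', ∃ γ : Pl → ℝ, FS γ ∧ ∀ v s w, s ≠ 0 → w ≠ 0 →
    ns 𝒜 v (mul e e' s w) ≤ ns 𝒜 v s + ns 𝒜 v w + γ v
  /-- (ALT) + (TRI) in logarithmic form -/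
  det_ne : ∀ m d, d ≤ m → ∀ y : Fin d → X, Function.Injective y →
    ∃ Jc : Fin d → Fin (dW m), SL.mnr (Matrix.of fun i l => ev m l (y i)) Jc ≠ 0
  det : ∀ m d, d ≤ m → ∃ γ : Pl → ℝ, FS γ ∧ ∀ v (y : Fin d → X), Function.Injective y →
    |Real.log (⨆ Jc : Fin d → Fin (dW m), 𝒜.av v (SL.mnr (Matrix.of fun i l => ev m l (y i)) Jc))
      - m * ∑ i, nx v (y i) + ∑ i, ∑ j, (if i < j then lam v (y i) (y j) else 0)| ≤ γ v
  /- classes -/
  cl : Multiset X →+ J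
  cl_oo : cl {oo} = 0
  cl_Z : ∀ e s, s ≠ 0 → cl (Z e s) = 0
  /-- (R1) representatives -/
  rep : ∀ c ∈ Γ, ∀ P : Finset X, ∃ Y : Finset X, Stab Y.val ∧ Y.card = n0 ∧ oo ∉ Y ∧ Disjoint Y P ∧
    cl Y.val = c
  /-- (R2) two linearly equivalent divisors are cut out by two sections with the same residual divisor -/
  pair : ∀ nmax : ℕ, ∃ m : ℕ, ∀ T1 T2 : Multiset X, Stab T1 → Stab T2 → T1.card ≤ nmax →
    T2.card ≤ nmax → cl T1 = cl T2 → ∀ P : Finset X, ∃ (s w : Fin (dW m) → ℚ) (R : Multiset X) (a b : ℕ),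
      s ≠ 0 ∧ w ≠ 0 ∧ Z m s = T1 + R + a • {oo} ∧ Z m w = T2 + R + b • {oo} ∧ ∀ x ∈ R, x ∉ P
  /-- (R5) a generic section through `Y` -/
  gen : ∃ m1 : ℕ, 2 ≤ m1 ∧ ∀ Y : Finset X, Stab Y.val → Y.card = n0 → oo ∉ Y →
    ∃ s : Fin (dW m1) → ℚ, s ≠ 0 ∧ (Z m1 s).Nodup ∧ oo ∉ Z m1 s ∧ Y.val ≤ Z m1 s

variable {𝒜 : AVFam} {X : Type} [MulAction GQ X] {J : Type} [AddCommGroup J] {Γ : AddSubgroup J}

namespace HtData

variable (D : HtData 𝒜 X Γ)

/-- rational sections -/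
abbrev Sec (e : ℕ) : Type := Fin (D.dW e) → ℚ

/-- the value `s(x~)` -/
def val (e : ℕ) (s : D.Sec e) (x : X) : Kb := ∑ l, algebraMap ℚ Kb (s l) * D.ev e l x

/-- the height of a point, `= n0 * h(x)` in the blueprint -/
def hx (x : X) : ℝ := Sm (fun v => D.nx v x)

/-- `hh Y = n0 * h(Y)` -/
def hh (Y : Multiset X) : ℝ := (Y.map D.hx).sum

/-- the global distance of two distinct points -/
def LL (x y : X) : ℝ := Sm (fun v => D.lam v x y)

/-- `dl(Y,Y')` -/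
def dl (Y Y' : Multiset X) : ℝ := (Y.map fun x => (Y'.map fun y => D.LL x y).sum).sum

/-- `B = n0 * b` : the pairing of two disjoint divisors -/
def B (Y Y' : Multiset X) : ℝ := Y'.card * D.hh Y + Y.card * D.hh Y' - D.n0 * D.dl Y Y'

/-- `2 * dlp(Y)` -/
def dlp2 (Y : Finset X) : ℝ := ∑ z ∈ Y.offDiag, D.LL z.1 z.2

/-- `Th' = n0 * Th` -/
def Th (Y : Finset X) : ℝ := ((Y.card : ℝ) + D.g - 1) * D.hh Y.val - D.n0 * (D.dlp2 Y / 2)

/-- the interpolation matrix -/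
def mat (m : ℕ) {d : ℕ} (y : Fin d → X) : Matrix (Fin d) (Fin (D.dW m)) Kb :=
  Matrix.of fun i l => D.ev m l (y i)

/-- local interpolation height -/
def Hl (m : ℕ) {d : ℕ} (y : Fin d → X) (v : Pl) : ℝ :=
  Real.log (⨆ Jc : Fin d → Fin (D.dW m), 𝒜.av v (SL.mnr (D.mat m y) Jc))

/-- `H(Y)` -/
def HH (m : ℕ) {d : ℕ} (y : Fin d → X) : ℝ := Sm (D.Hl m y)

end HtData

end Fermat.Agent.S17.Glob
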