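/-
S17 / GLOB / AV     key [S17/G-AV]

Existence of the family of absolute values.
* `none`   : any embedding `Kb →+* ℂ` (`IsAlgClosed.lift`), `v x = ‖ι x‖`  (`AbsoluteValue.comp` of `Complex.abs`/`NormedField.toAbsoluteValue`).
* `some p` : `Fermat.Agent.S55.B.padicEmbedding p : Qb →+* _` (see S55/B/Padic.lean: `mem_place_iff_norm`, `GE_zero_iff_norm`), `v x = ‖padicEmbedding p x‖`;
  or directly Mathlib: `IsAlgClosed.lift : Kb →ₐ[ℚ] PadicAlgCl p`, `PadicAlgCl.norm_extends`, `PadicAlgCl.isNonarchimedean`.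
* `fin` : `x ≠ 0` algebraic: `x` and `x⁻¹` are integral over `ℤ[1/n]`: if `p` does not divide the leading and the constant coefficient of a
  primitive integral polynomial of `x` then `v_p x ≤ 1` and `v_p x⁻¹ ≤ 1`.  (S55/D/RamFin.lean: `finite_mem_nonunits`, `finite_not_mem` do this for
  `primeLocalPlace q`, which is the unit ball of `padicEmbedding q` by `mem_place_iff_norm`.)
-/
import Fermat.Agent.S17.Glob.Defs
import Fermat.Agent.S55.B.Padic
import Fermat.Agent.S55.D.RamFin

set_option autoImplicit false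
set_option linter.style.haveILetI false

noncomputable section

namespace Fermat.Agent.S17.Glob

open ExtCitation

/-- the archimedean absolute value -/
def avArch : AbsoluteValue Kb ℝ :=
  (NormedField.toAbsoluteValue ℂ).comp (f := ((IsAlgClosed.lift : Kb →ₐ[ℚ] ℂ) : Kb →+* ℂ)) (RingHom.injective _)

/-- the `p`-adic absolute value -/
def avPadic (p : Nat.Primes) : AbsoluteValue Kb ℝ :=
  haveI : Fact (p : ℕ).Prime := ⟨p.2⟩
  (NormedField.toAbsoluteValue (PadicAlgCl (p : ℕ))).comp (f := (padicEmbedding (p : ℕ) : Kb →+* PadicAlgCl (p : ℕ)))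
    (RingHom.injective _)

theorem avPadic_apply (p : Nat.Primes) (x : Kb) :
    haveI : Fact (p : ℕ).Prime := ⟨p.2⟩
    avPadic p x = ‖padicEmbedding (p : ℕ) x‖ := rfl

theorem nonempty_avFam : Nonempty AVFam := by
  refine ⟨{ av := fun v => v.elim avArch avPadic, arch := ?_, padic := ?_, na := ?_, fin := ?_ }⟩
  · intro x
    change ‖(IsAlgClosed.lift : Kb →ₐ[ℚ] ℂ) (algebraMap ℚ Kb x)‖ = _
    rw [AlgHom.commutes]
    simp
  · intro p x
    haveI : Fact (p : ℕ).Prime := ⟨p.2⟩
    change ‖padicEmbedding (p : ℕ) (algebraMap ℚ Kb x)‖ = _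
    rw [AlgHom.commutes, IsScalarTower.algebraMap_apply ℚ ℚ_[(p : ℕ)] (PadicAlgCl (p : ℕ))]
    have h1 := PadicAlgCl.norm_extends (p := (p : ℕ)) (algebraMap ℚ ℚ_[(p : ℕ)] x)
    rw [h1]
    exact Padic.eq_padicNorm x
  · intro p x y
    haveI : Fact (p : ℕ).Prime := ⟨p.2⟩
    change ‖padicEmbedding (p : ℕ) (x + y)‖ ≤ max ‖padicEmbedding (p : ℕ) x‖ ‖padicEmbedding (p : ℕ) y‖
    rw [map_add]
    exact PadicAlgCl.isNonarchimedean (p : ℕ) _ _
  · intro x hx
    have h1 := Fermat.Agent.S55.D.finite_not_mem x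
    have h2 := Fermat.Agent.S55.D.finite_not_mem x⁻¹
    refine (((h1.union h2).image some).union (Set.finite_singleton none)).subset ?_
    intro v hv
    rcases v with _ | p
    · right; rfl
    · left
      refine ⟨p, ?_, rfl⟩
      haveI : Fact (p : ℕ).Prime := ⟨p.2⟩
      by_contra hcon
      rw [Set.mem_union, not_or] at hcon
      obtain ⟨h3, h4⟩ := hcon
      simp only [Set.mem_ofPred_eq, not_not] at h3 h4
      rw [Fermat.Agent.S55.B.mem_place_iff_norm] at h3 h4
      apply hv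
      change ‖padicEmbedding (p : ℕ) x‖ = 1
      rw [map_inv₀, norm_inv] at h4
      have h0 : 0 < ‖padicEmbedding (p : ℕ) x‖ := norm_pos_iff.2 ((map_ne_zero _).2 hx)
      have h5 : 1 ≤ ‖padicEmbedding (p : ℕ) x‖ := by
        rwa [inv_le_one₀ h0] at h4
      exact le_antisymm h3 h5

end Fermat.Agent.S17.Glob
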