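/-
S17 / GLOB / BForm     key [S17/G-BFORM]     formal properties of `hh`, `dl`, `B`, `Stab`, `Th`   (imports only Glob/Defs; pure Multiset/Finset algebra)
-/
import Fermat.Agent.S17.Glob.Defs

set_option autoImplicit false

noncomputable section

namespace Fermat.Agent.S17.Glob

variable {𝒜 : AVFam} {X : Type} [MulAction GQ X] {J : Type} [AddCommGroup J] {Γ : AddSubgroup J}

theorem Stab.zero : Stab (0 : Multiset X) := by
  intro σ; simp

theorem Stab.add {Y Y' : Multiset X} (h : Stab Y) (h' : Stab Y') : Stab (Y + Y') := by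
  intro σ; rw [Multiset.map_add, h σ, h' σ]

theorem Stab.sub [DecidableEq X] {Y Y' : Multiset X} (h : Stab Y) (h' : Stab Y') : Stab (Y - Y') := by
  intro σ
  have hc : ∀ {W : Multiset X}, Stab W → ∀ b : X, Multiset.count (σ • b) W = Multiset.count b W := by
    intro W hW b
    conv_lhs => rw [← hW σ]
    exact Multiset.count_map_eq_count' (fun x => σ • x) W (MulAction.injective σ) b
  ext a
  obtain ⟨b, rfl⟩ : ∃ b, a = σ • b := ⟨σ⁻¹ • a, by simp⟩
  rw [Multiset.count_map_eq_count' (fun x => σ • x) _ (MulAction.injective σ) b,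
    Multiset.count_sub, Multiset.count_sub, hc h, hc h']

theorem Stab.mem_iff {Y : Multiset X} (h : Stab Y) (σ : GQ) (x : X) : σ • x ∈ Y ↔ x ∈ Y := by
  constructor
  · intro hx
    have h1 := h σ⁻¹
    rw [← h1]
    exact Multiset.mem_map.mpr ⟨σ • x, hx, by simp⟩
  · intro hx
    rw [← h σ]
    exact Multiset.mem_map.mpr ⟨x, hx, rfl⟩

theorem stab_finset_iff {Y : Finset X} : Stab Y.val ↔ ∀ (σ : GQ) (x : X), x ∈ Y → σ • x ∈ Y := by
  classical
  constructor
  · intro h σ x hx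
    exact (h.mem_iff σ x).mpr hx
  · intro h σ
    have hnd : (Y.val.map (fun x => σ • x)).Nodup := Y.nodup.map (MulAction.injective σ)
    refine (Multiset.Nodup.ext hnd Y.nodup).mpr ?_
    intro a
    constructor
    · intro ha
      obtain ⟨x, hx, rfl⟩ := Multiset.mem_map.mp ha
      exact h σ x hx
    · intro ha
      exact Multiset.mem_map.mpr ⟨σ⁻¹ • a, h σ⁻¹ a ha, by simp⟩

theorem Stab.toFinset [DecidableEq X] {Y : Multiset X} (h : Stab Y) : Stab Y.toFinset.val := by
  rw [stab_finset_iff]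
  intro σ x hx
  rw [Multiset.mem_toFinset] at *
  exact (h.mem_iff σ x).mpr hx

theorem Stab.sdiff [DecidableEq X] {Y Y' : Finset X} (h : Stab Y.val) (h' : Stab Y'.val) :
    Stab (Y \ Y').val := by
  rw [stab_finset_iff]
  intro σ x hx
  rw [Finset.mem_sdiff] at *
  exact ⟨(h.mem_iff σ x).mpr hx.1, fun h2 => hx.2 ((h'.mem_iff σ x).mp h2)⟩

theorem Stab.union [DecidableEq X] {Y Y' : Finset X} (h : Stab Y.val) (h' : Stab Y'.val) :
    Stab (Y ∪ Y').val := by
  rw [stab_finset_iff]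
  intro σ x hx
  rw [Finset.mem_union] at *
  rcases hx with hx | hx
  · exact Or.inl ((h.mem_iff σ x).mpr hx)
  · exact Or.inr ((h'.mem_iff σ x).mpr hx)

omit [MulAction GQ X] in
/-- enumeration of a finset -/
theorem exists_enum (Y : Finset X) [DecidableEq X] :
    ∃ y : Fin Y.card → X, Function.Injective y ∧ Finset.univ.image y = Y := by
  refine ⟨fun i => (Y.equivFin.symm i : X), ?_, ?_⟩
  · intro i j hij
    exact Y.equivFin.symm.injective (Subtype.ext hij)
  · ext x
    simp only [Finset.mem_image, Finset.mem_univ, true_and]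
    constructor
    · rintro ⟨i, rfl⟩
      exact (Y.equivFin.symm i).2
    · intro hx
      exact ⟨Y.equivFin ⟨x, hx⟩, by simp⟩

/-- `G` permutes an enumeration of a stable finset -/
theorem Stab.perm [DecidableEq X] {Y : Finset X} (h : Stab Y.val) {d : ℕ} {y : Fin d → X}
    (hy : Function.Injective y) (hY : Finset.univ.image y = Y) (σ : GQ) :
    ∃ π : Equiv.Perm (Fin d), ∀ i, σ • y i = y (π i) := by
  have h1 : ∀ i, ∃ j, y j = σ • y i := by
    intro i
    have h2 : y i ∈ Y := by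
      rw [← hY]; exact Finset.mem_image_of_mem y (Finset.mem_univ i)
    have h3 : σ • y i ∈ Y := (h.mem_iff σ (y i)).mpr h2
    rw [← hY] at h3
    obtain ⟨j, -, hj⟩ := Finset.mem_image.mp h3
    exact ⟨j, hj⟩
  choose f hf using h1
  have hinj : Function.Injective f := by
    intro i j hij
    have : σ • y i = σ • y j := by rw [← hf i, ← hf j, hij]
    exact hy (MulAction.injective σ this)
  refine ⟨Equiv.ofBijective f (Finite.injective_iff_bijective.mp hinj), ?_⟩
  intro i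
  exact (hf i).symm

namespace HtData

variable (D : HtData 𝒜 X Γ)

theorem LL_comm (x y : X) : D.LL x y = D.LL y x := by
  unfold LL
  congr 1
  funext v
  exact D.lam_symm v x y

theorem hh_zero : D.hh 0 = 0 := by
  simp [hh]

theorem hh_add (Y Y' : Multiset X) : D.hh (Y + Y') = D.hh Y + D.hh Y' := by
  simp [hh]

theorem dl_comm (Y Y' : Multiset X) : D.dl Y Y' = D.dl Y' Y := by
  unfold dl
  rw [Multiset.sum_map_sum_map]
  simp_rw [D.LL_comm]

theorem dl_add_left (Y₁ Y₂ Y' : Multiset X) : D.dl (Y₁ + Y₂) Y' = D.dl Y₁ Y' + D.dl Y₂ Y' := by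
  simp [dl]

theorem dl_zero_left (Y' : Multiset X) : D.dl 0 Y' = 0 := by
  simp [dl]

theorem B_comm (Y Y' : Multiset X) : D.B Y Y' = D.B Y' Y := by
  unfold B
  rw [D.dl_comm Y Y']
  ring

theorem B_zero_left (Y' : Multiset X) : D.B 0 Y' = 0 := by
  simp [B, hh_zero, dl_zero_left]

theorem B_add_left (Y₁ Y₂ Y' : Multiset X) : D.B (Y₁ + Y₂) Y' = D.B Y₁ Y' + D.B Y₂ Y' := by
  unfold B
  rw [D.dl_add_left, D.hh_add, Multiset.card_add]
  push_cast
  ring

theorem B_add_right (Y Y₁ Y₂ : Multiset X) : D.B Y (Y₁ + Y₂) = D.B Y Y₁ + D.B Y Y₂ := by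
  rw [D.B_comm, D.B_add_left, D.B_comm Y₁, D.B_comm Y₂]

theorem B_nsmul_right (Y Y' : Multiset X) (a : ℕ) : D.B Y (a • Y') = a * D.B Y Y' := by
  induction a with
  | zero => rw [zero_smul, D.B_comm, D.B_zero_left]; simp
  | succ n ih =>
    rw [succ_nsmul, D.B_add_right, ih]
    push_cast
    ring

theorem Th_union [DecidableEq X] {Y Y' : Finset X} (h : Disjoint Y Y') :
    D.Th (Y ∪ Y') = D.Th Y + D.Th Y' + D.B Y.val Y'.val := by
  have hval : (Y ∪ Y').val = Y.val + Y'.val := by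
    rw [← Finset.disjUnion_eq_union Y Y' h, Finset.disjUnion_val]
  have hcard : (Y ∪ Y').card = Y.card + Y'.card := Finset.card_union_of_disjoint h
  have hdl : D.dl Y.val Y'.val = ∑ x ∈ Y, ∑ y ∈ Y', D.LL x y := rfl
  have hoff : D.dlp2 (Y ∪ Y') = D.dlp2 Y + D.dlp2 Y' + 2 * D.dl Y.val Y'.val := by
    unfold dlp2
    have e : (Y ∪ Y').offDiag = (Y.offDiag ∪ Y'.offDiag) ∪ (Y ×ˢ Y' ∪ Y' ×ˢ Y) := by
      ext ⟨a, b⟩
      simp only [Finset.mem_offDiag, Finset.mem_union, Finset.mem_product]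
      constructor
      · rintro ⟨ha | ha, hb | hb, hab⟩
        · exact Or.inl (Or.inl ⟨ha, hb, hab⟩)
        · exact Or.inr (Or.inl ⟨ha, hb⟩)
        · exact Or.inr (Or.inr ⟨ha, hb⟩)
        · exact Or.inl (Or.inr ⟨ha, hb, hab⟩)
      · rintro ((⟨ha, hb, hab⟩ | ⟨ha, hb, hab⟩) | (⟨ha, hb⟩ | ⟨ha, hb⟩))
        · exact ⟨Or.inl ha, Or.inl hb, hab⟩
        · exact ⟨Or.inr ha, Or.inr hb, hab⟩
        · exact ⟨Or.inl ha, Or.inr hb, fun hab => Finset.disjoint_left.mp h ha (hab ▸ hb)⟩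
        · exact ⟨Or.inr ha, Or.inl hb, fun hab => Finset.disjoint_left.mp h hb (hab ▸ ha)⟩
    have d1 : Disjoint Y.offDiag Y'.offDiag := by
      rw [Finset.disjoint_left]
      rintro ⟨a, b⟩ h1 h2
      rw [Finset.mem_offDiag] at h1 h2
      exact Finset.disjoint_left.mp h h1.1 h2.1
    have d2 : Disjoint (Y ×ˢ Y') (Y' ×ˢ Y) := by
      rw [Finset.disjoint_left]
      rintro ⟨a, b⟩ h1 h2
      rw [Finset.mem_product] at h1 h2
      exact Finset.disjoint_left.mp h h1.1 h2.1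
    have d3 : Disjoint (Y.offDiag ∪ Y'.offDiag) (Y ×ˢ Y' ∪ Y' ×ˢ Y) := by
      rw [Finset.disjoint_left]
      rintro ⟨a, b⟩ h1 h2
      simp only [Finset.mem_offDiag, Finset.mem_union, Finset.mem_product] at h1 h2
      rcases h1 with ⟨ha, hb, -⟩ | ⟨ha, hb, -⟩ <;> rcases h2 with ⟨ha', hb'⟩ | ⟨ha', hb'⟩
      · exact Finset.disjoint_left.mp h hb hb'
      · exact Finset.disjoint_left.mp h ha ha'
      · exact Finset.disjoint_left.mp h ha' ha
      · exact Finset.disjoint_left.mp h hb' hb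
    rw [e, Finset.sum_union d3, Finset.sum_union d1, Finset.sum_union d2, Finset.sum_product,
      Finset.sum_product, hdl]
    have : ∑ x ∈ Y', ∑ y ∈ Y, D.LL (x, y).1 (x, y).2 = ∑ x ∈ Y, ∑ y ∈ Y', D.LL x y := by
      rw [Finset.sum_comm]
      simp_rw [D.LL_comm]
    rw [this]
    ring
  unfold Th B
  rw [hval, D.hh_add, hoff, hcard]
  simp only [Finset.card_val]
  push_cast
  ring

end HtData

end Fermat.Agent.S17.Glob
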