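/-
S17 / GLOB / Sum     key [S17/G-SUM]      (Mathlib only + Glob/Defs)

API for `FS` (finite support) and `Sm` (finsum over the places of ℚ); product formula.
-/
import Fermat.Agent.S17.Glob.Defs

set_option autoImplicit false

noncomputable section

namespace Fermat.Agent.S17.Glob

theorem FS.zero : FS (fun _ => (0 : ℝ)) := by
  unfold FS
  simp [Function.support]

theorem FS.add {f g : Pl → ℝ} (hf : FS f) (hg : FS g) : FS (fun v => f v + g v) :=
  (Set.Finite.union hf hg).subset (Function.support_add f g)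

theorem FS.neg {f : Pl → ℝ} (hf : FS f) : FS (fun v => - f v) := by
  unfold FS at *
  have : Function.support (fun v => - f v) = Function.support f := Function.support_neg f
  rw [this]; exact hf

theorem FS.sub {f g : Pl → ℝ} (hf : FS f) (hg : FS g) : FS (fun v => f v - g v) := by
  simpa [sub_eq_add_neg] using hf.add hg.neg

theorem FS.const_mul {f : Pl → ℝ} (c : ℝ) (hf : FS f) : FS (fun v => c * f v) := by
  refine Set.Finite.subset hf ?_
  intro v hv
  simp only [Function.mem_support] at *
  exact fun h => hv (by rw [h, mul_zero])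

theorem FS.fsum {ι : Type*} (s : Finset ι) {f : ι → Pl → ℝ} (h : ∀ i ∈ s, FS (f i)) :
    FS (fun v => ∑ i ∈ s, f i v) := by
  classical
  induction s using Finset.induction_on with
  | empty => simpa using FS.zero
  | insert a s ha ih =>
    have h1 := (h a (Finset.mem_insert_self a s)).add
      (ih (fun i hi => h i (Finset.mem_insert_of_mem hi)))
    simpa [Finset.sum_insert ha] using h1

theorem FS.msum {α : Type*} (Y : Multiset α) {f : α → Pl → ℝ} (h : ∀ a ∈ Y, FS (f a)) :
    FS (fun v => (Y.map fun a => f a v).sum) := by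
  induction Y using Multiset.induction_on with
  | empty => simpa using FS.zero
  | cons a s ih =>
    have h1 := (h a (Multiset.mem_cons_self a s)).add
      (ih (fun i hi => h i (Multiset.mem_cons_of_mem hi)))
    simpa using h1

theorem FS.of_abs_le {f γ : Pl → ℝ} (hγ : FS γ) (h : ∀ v, |f v| ≤ γ v) : FS f := by
  refine Set.Finite.subset hγ ?_
  intro v hv
  simp only [Function.mem_support] at *
  intro h0
  have := h v
  rw [h0] at this
  exact hv (abs_eq_zero.mp (le_antisymm this (abs_nonneg _)))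

theorem Sm_zero : Sm (fun _ => (0 : ℝ)) = 0 := by
  unfold Sm; simp

theorem Sm_congr {f g : Pl → ℝ} (h : ∀ v, f v = g v) : Sm f = Sm g := by
  have : f = g := funext h
  rw [this]

theorem Sm_add {f g : Pl → ℝ} (hf : FS f) (hg : FS g) : Sm (fun v => f v + g v) = Sm f + Sm g :=
  finsum_add_distrib hf hg

theorem Sm_neg (f : Pl → ℝ) : Sm (fun v => - f v) = - Sm f :=
  finsum_neg_distrib f

theorem Sm_sub {f g : Pl → ℝ} (hf : FS f) (hg : FS g) : Sm (fun v => f v - g v) = Sm f - Sm g :=
  finsum_sub_distrib hf hg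

theorem Sm_const_mul (c : ℝ) {f : Pl → ℝ} (hf : FS f) : Sm (fun v => c * f v) = c * Sm f :=
  (mul_finsum f c).symm

theorem Sm_fsum {ι : Type*} (s : Finset ι) {f : ι → Pl → ℝ} (h : ∀ i ∈ s, FS (f i)) :
    Sm (fun v => ∑ i ∈ s, f i v) = ∑ i ∈ s, Sm (f i) := by
  classical
  induction s using Finset.induction_on with
  | empty => simpa using Sm_zero
  | insert a s ha ih =>
    have h1 := Sm_add (h a (Finset.mem_insert_self a s))
      (FS.fsum s (fun i hi => h i (Finset.mem_insert_of_mem hi)))
    rw [ih (fun i hi => h i (Finset.mem_insert_of_mem hi))] at h1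
    simpa [Finset.sum_insert ha] using h1

theorem Sm_msum {α : Type*} (Y : Multiset α) {f : α → Pl → ℝ} (h : ∀ a ∈ Y, FS (f a)) :
    Sm (fun v => (Y.map fun a => f a v).sum) = (Y.map fun a => Sm (f a)).sum := by
  induction Y using Multiset.induction_on with
  | empty => simpa using Sm_zero
  | cons a s ih =>
    have h1 := Sm_add (h a (Multiset.mem_cons_self a s))
      (FS.msum s (fun i hi => h i (Multiset.mem_cons_of_mem hi)))
    rw [ih (fun i hi => h i (Multiset.mem_cons_of_mem hi))] at h1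
    simpa using h1

theorem Sm_le {f g : Pl → ℝ} (hf : FS f) (hg : FS g) (h : ∀ v, f v ≤ g v) : Sm f ≤ Sm g :=
  finsum_le_finsum' hf hg h

theorem Sm_nonneg {f : Pl → ℝ} (h : ∀ v, 0 ≤ f v) : 0 ≤ Sm f :=
  finsum_nonneg h

theorem abs_Sm_le {f γ : Pl → ℝ} (hγ : FS γ) (h : ∀ v, |f v| ≤ γ v) : |Sm f| ≤ Sm γ := by
  have hf : FS f := FS.of_abs_le hγ h
  rw [abs_le]
  constructor
  · rw [← Sm_neg]
    exact Sm_le hγ.neg hf (fun v => (abs_le.mp (h v)).1)
  · exact Sm_le hf hγ (fun v => (abs_le.mp (h v)).2)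

/-- splitting off the archimedean place -/
theorem Sm_eq_add {f : Pl → ℝ} (hf : FS f) : Sm f = f none + ∑ᶠ p : Nat.Primes, f (some p) := by
  classical
  unfold Sm
  have hfin : (Function.support (fun p : Nat.Primes => f (some p))).Finite := by
    have : Function.support (fun p : Nat.Primes => f (some p)) = some ⁻¹' (Function.support f) := rfl
    rw [this]
    exact hf.preimage (Option.some_injective _).injOn
  set T : Finset Nat.Primes := hfin.toFinset with hT
  have h1 : ∑ᶠ p : Nat.Primes, f (some p) = ∑ p ∈ T, f (some p) :=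
    finsum_eq_sum_of_support_subset _ (by simp [hT])
  have h2 : ∑ᶠ v, f v = ∑ v ∈ Finset.insertNone T, f v := by
    apply finsum_eq_sum_of_support_subset
    intro v hv
    cases v with
    | none => simp
    | some p =>
      rw [Finset.mem_coe, Finset.some_mem_insertNone, hT, Set.Finite.mem_toFinset]
      exact hv
  rw [h1, h2, Finset.sum_insertNone]

variable (𝒜 : AVFam)

theorem FS_log_av {x : Kb} (hx : x ≠ 0) : FS (fun v => Real.log (𝒜.av v x)) := by
  refine Set.Finite.subset (𝒜.fin x hx) ?_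
  intro v hv
  simp only [Function.mem_support, Set.mem_ofPred_eq] at *
  intro h
  rw [h] at hv
  exact hv Real.log_one

theorem sum_primes_log_nat {n : ℕ} (hn : n ≠ 0) :
    ∑ᶠ p : Nat.Primes, (padicValNat (p : ℕ) n : ℝ) * Real.log (p : ℕ) = Real.log n := by
  classical
  have h1 : ∑ᶠ p : Nat.Primes, (padicValNat (p : ℕ) n : ℝ) * Real.log (p : ℕ)
      = ∑ p ∈ n.primeFactors.subtype Nat.Prime, (padicValNat (p : ℕ) n : ℝ) * Real.log (p : ℕ) := by
    apply finsum_eq_sum_of_support_subset
    intro p hp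
    simp only [Function.mem_support] at hp
    refine Finset.mem_coe.mpr (Finset.mem_subtype.mpr ?_)
    rw [Nat.mem_primeFactors]
    refine ⟨p.2, ?_, hn⟩
    by_contra hd
    apply hp
    rw [padicValNat.eq_zero_of_not_dvd hd]
    simp
  rw [h1]
  have h2 : ∑ p ∈ n.primeFactors.subtype Nat.Prime, (padicValNat (p : ℕ) n : ℝ) * Real.log (p : ℕ)
      = ∑ p ∈ n.primeFactors, (padicValNat p n : ℝ) * Real.log p := by
    rw [Finset.sum_subtype_of_mem (p := Nat.Prime) (fun p => (padicValNat p n : ℝ) * Real.log p)]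
    intro x hx
    exact Nat.prime_of_mem_primeFactors hx
  rw [h2]
  conv_rhs => rw [← Nat.prod_factorization_pow_eq_self hn]
  rw [Finsupp.prod, Nat.cast_prod, Real.log_prod]
  · rw [Nat.support_factorization]
    apply Finset.sum_congr rfl
    intro p hp
    rw [Nat.cast_pow, Real.log_pow, Nat.factorization_def n (Nat.prime_of_mem_primeFactors hp)]
  · intro p hp
    rw [Nat.support_factorization] at hp
    have := (Nat.prime_of_mem_primeFactors hp).pos
    positivity

theorem fin_primes_log_nat {n : ℕ} (hn : n ≠ 0) :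
    (Function.support fun p : Nat.Primes => (padicValNat (p : ℕ) n : ℝ) * Real.log (p : ℕ)).Finite := by
  classical
  refine Set.Finite.subset (Finset.finite_toSet (n.primeFactors.subtype Nat.Prime)) ?_
  intro p hp
  refine Finset.mem_coe.mpr (Finset.mem_subtype.mpr ?_)
  rw [Nat.mem_primeFactors]
  refine ⟨p.2, ?_, hn⟩
  by_contra hd
  apply hp
  show (padicValNat (p : ℕ) n : ℝ) * Real.log (p : ℕ) = 0
  rw [padicValNat.eq_zero_of_not_dvd hd]
  simp

/-- the product formula -/
theorem Sm_log_rat {x : ℚ} (hx : x ≠ 0) : Sm (fun v => Real.log (𝒜.av v (algebraMap ℚ Kb x))) = 0 := by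
  have hx' : algebraMap ℚ Kb x ≠ 0 := by
    simpa using hx
  rw [Sm_eq_add (FS_log_av 𝒜 hx'), 𝒜.arch]
  have hnum : x.num.natAbs ≠ 0 := by
    simpa using hx
  have hden : x.den ≠ 0 := x.den_nz
  have h1 : ∀ p : Nat.Primes, Real.log (𝒜.av (some p) (algebraMap ℚ Kb x))
      = (padicValNat (p : ℕ) x.den : ℝ) * Real.log (p : ℕ)
        - (padicValNat (p : ℕ) x.num.natAbs : ℝ) * Real.log (p : ℕ) := by
    intro p
    rw [𝒜.padic, padicNorm.eq_zpow_of_nonzero hx]
    rw [Rat.cast_zpow, Rat.cast_natCast, Real.log_zpow, padicValRat_def, padicValInt,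
      Int.cast_neg, Int.cast_sub, Int.cast_natCast, Int.cast_natCast]
    ring
  rw [finsum_congr h1, finsum_sub_distrib (fin_primes_log_nat hden) (fin_primes_log_nat hnum),
    sum_primes_log_nat hden, sum_primes_log_nat hnum]
  have h2 : |(x : ℝ)| = (x.num.natAbs : ℝ) / (x.den : ℝ) := by
    conv_lhs => rw [← Rat.num_div_den x]
    push_cast
    rw [abs_div, Nat.abs_cast, Nat.cast_natAbs]
    push_cast
    rfl
  rw [h2, Real.log_div (by exact_mod_cast hnum) (by exact_mod_cast hden)]
  ring

theorem isGalois_Kb : IsGalois ℚ Kb := by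
  have h2 : Algebra.IsAlgebraic ℚ Kb := AlgebraicClosure.isAlgebraic ℚ
  have h1 : IsAlgClosure ℚ Kb := ⟨inferInstance, h2⟩
  have : Normal ℚ Kb := IsAlgClosure.normal ℚ Kb
  exact {}

theorem exists_rat_of_fixed (x : Kb) (h : ∀ σ : GQ, σ x = x) : ∃ q : ℚ, algebraMap ℚ Kb q = x :=
  have := isGalois_Kb
  (InfiniteGalois.mem_range_algebraMap_iff_fixed (k := ℚ) (K := Kb) x).mpr h

theorem Sm_log_fixed {a : Kb} (ha : a ≠ 0) (h : ∀ σ : GQ, σ a = a) :
    Sm (fun v => Real.log (𝒜.av v a)) = 0 := by
  obtain ⟨x, rfl⟩ := exists_rat_of_fixed a h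
  apply Sm_log_rat
  rintro rfl
  exact ha (map_zero _)

theorem Sm_log_sq {a : Kb} (ha : a ≠ 0) (h : ∀ σ : GQ, σ a = a ∨ σ a = - a) :
    Sm (fun v => Real.log (𝒜.av v a)) = 0 := by
  have h1 : Sm (fun v => Real.log (𝒜.av v (a ^ 2))) = 0 := by
    apply Sm_log_fixed 𝒜 (pow_ne_zero 2 ha)
    intro σ
    rw [map_pow]
    rcases h σ with h | h <;> rw [h]
    ring
  have h2 : Sm (fun v => Real.log (𝒜.av v (a ^ 2))) = 2 * Sm (fun v => Real.log (𝒜.av v a)) := by
    rw [← Sm_const_mul 2 (FS_log_av 𝒜 ha)]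
    apply Sm_congr
    intro v
    rw [map_pow, Real.log_pow]
    norm_num
  linarith

theorem log_mk_nonneg (S : Finset Kb) (M : ℕ) (v : Pl) : 0 ≤ Real.log (MK.mk S M (𝒜.av v)) :=
  Real.log_nonneg (MK.one_le_mk S M _)

/-- the logarithm of an `M_K`-constant is an admissible error term -/
theorem FS_log_mk (S : Finset Kb) (M : ℕ) : FS (fun v => Real.log (MK.mk S M (𝒜.av v))) := by
  classical
  have hfin : ({none} ∪ ⋃ a ∈ S.filter (fun a => a ≠ 0), {v | 𝒜.av v a ≠ 1} : Set Pl).Finite := by
    refine Set.Finite.union (Set.finite_singleton _) ?_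
    refine Set.Finite.biUnion (Finset.finite_toSet _) ?_
    intro a ha
    exact 𝒜.fin a (Finset.mem_filter.mp ha).2
  refine hfin.subset ?_
  intro v hv
  by_contra hn
  apply hv
  simp only [Set.mem_union, Set.mem_singleton_iff, Set.mem_iUnion, not_or, not_exists] at hn
  obtain ⟨h0, h1⟩ := hn
  cases v with
  | none => exact absurd rfl h0
  | some p =>
    have hb : MK.base S (𝒜.av (some p)) = 1 := by
      unfold MK.base
      apply Finset.prod_eq_one
      intro a ha
      by_cases ha0 : a = 0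
      · subst ha0; simp
      · have := h1 a (Finset.mem_filter.mpr ⟨ha, ha0⟩)
        simp only [Set.mem_ofPred_eq, not_not] at this
        rw [this]; simp
    show Real.log (MK.mk S M (𝒜.av (some p))) = 0
    unfold MK.mk
    rw [MK.tau_of_na (𝒜.na p), hb]
    simp

end Fermat.Agent.S17.Glob
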