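/-
S17 / GLOB / NS     key [S17/G-NS]     heights of rational vectors  (imports Glob/Sum)

`ns 𝒜 v s = log (⨆ l, v (s l))`, `hs 𝒜 s = Sm (ns 𝒜 · s)`.
-/
import Fermat.Agent.S17.Glob.Sum

set_option autoImplicit false

noncomputable section

namespace Fermat.Agent.S17.Glob

variable (𝒜 : AVFam) {n : ℕ}

theorem le_sup (s : Fin n → ℚ) (v : Pl) (l : Fin n) :
    𝒜.av v (algebraMap ℚ Kb (s l)) ≤ ⨆ l, 𝒜.av v (algebraMap ℚ Kb (s l)) :=
  le_ciSup (f := fun l => 𝒜.av v (algebraMap ℚ Kb (s l))) (Set.finite_range _).bddAbove l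

theorem sup_pos {s : Fin n → ℚ} (hs : s ≠ 0) (v : Pl) :
    0 < ⨆ l, 𝒜.av v (algebraMap ℚ Kb (s l)) := by
  obtain ⟨l, hl⟩ := Function.ne_iff.mp hs
  have h1 : 0 < 𝒜.av v (algebraMap ℚ Kb (s l)) := by
    apply (𝒜.av v).pos
    simpa using hl
  exact lt_of_lt_of_le h1 (le_sup 𝒜 s v l)

theorem FS_ns {s : Fin n → ℚ} (hs : s ≠ 0) : FS (fun v => ns 𝒜 v s) := by
  classical
  obtain ⟨l0, hl0⟩ := Function.ne_iff.mp hs
  have hfin : ({none} ∪ ⋃ l ∈ Finset.univ.filter (fun l => s l ≠ 0),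
      {v | 𝒜.av v (algebraMap ℚ Kb (s l)) ≠ 1} : Set Pl).Finite := by
    refine Set.Finite.union (Set.finite_singleton _) ?_
    refine Set.Finite.biUnion (Finset.finite_toSet _) ?_
    intro l hl
    apply 𝒜.fin
    have := (Finset.mem_filter.mp hl).2
    simpa using this
  refine hfin.subset ?_
  intro v hv
  by_contra hn
  apply hv
  simp only [Set.mem_union, Set.mem_singleton_iff, Set.mem_iUnion, not_or, not_exists] at hn
  obtain ⟨-, h1⟩ := hn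
  have h2 : ∀ l, s l ≠ 0 → 𝒜.av v (algebraMap ℚ Kb (s l)) = 1 := by
    intro l hl
    have := h1 l (Finset.mem_filter.mpr ⟨Finset.mem_univ l, hl⟩)
    simpa only [Set.mem_ofPred_eq, not_not] using this
  have h3 : (⨆ l, 𝒜.av v (algebraMap ℚ Kb (s l))) = 1 := by
    apply le_antisymm
    · apply Real.iSup_le _ zero_le_one
      intro l
      by_cases hl : s l = 0
      · rw [hl]; simp
      · rw [h2 l hl]
    · rw [← h2 l0 hl0]
      exact le_sup 𝒜 s v l0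
  show ns 𝒜 v s = 0
  unfold ns
  rw [h3, Real.log_one]

theorem ns_smul {s : Fin n → ℚ} (hs0 : s ≠ 0) {c : ℚ} (hc : c ≠ 0) (v : Pl) :
    ns 𝒜 v (c • s) = Real.log (𝒜.av v (algebraMap ℚ Kb c)) + ns 𝒜 v s := by
  unfold ns
  have h1 : (⨆ l, 𝒜.av v (algebraMap ℚ Kb ((c • s) l)))
      = 𝒜.av v (algebraMap ℚ Kb c) * ⨆ l, 𝒜.av v (algebraMap ℚ Kb (s l)) := by
    rw [Real.mul_iSup_of_nonneg ((𝒜.av v).nonneg _)]
    congr 1
    funext l
    rw [Pi.smul_apply, smul_eq_mul, map_mul, map_mul]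
  rw [h1, Real.log_mul _ (sup_pos 𝒜 hs0 v).ne']
  apply ne_of_gt
  apply (𝒜.av v).pos
  simpa using hc

theorem hs_smul {s : Fin n → ℚ} (hs0 : s ≠ 0) {c : ℚ} (hc : c ≠ 0) : hs 𝒜 (c • s) = hs 𝒜 s := by
  unfold hs
  have hc' : algebraMap ℚ Kb c ≠ 0 := by simpa using hc
  rw [Sm_congr (ns_smul 𝒜 hs0 hc), Sm_add (FS_log_av 𝒜 hc') (FS_ns 𝒜 hs0), Sm_log_rat 𝒜 hc, zero_add]

theorem ns_some_int_le (x : Fin n → ℤ) (p : Nat.Primes) : ns 𝒜 (some p) (SL.cst x) ≤ 0 := by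
  unfold ns
  apply Real.log_nonpos
  · exact Real.iSup_nonneg (fun l => (𝒜.av _).nonneg _)
  · apply Real.iSup_le _ zero_le_one
    intro l
    rw [𝒜.padic]
    have : Fact (p : ℕ).Prime := ⟨p.2⟩
    have := padicNorm.of_int (p := (p : ℕ)) (x l)
    unfold SL.cst
    exact_mod_cast this

theorem hs_int_eq {x : Fin n → ℤ} (hx : x ≠ 0) :
    hs 𝒜 (SL.cst x) = Real.log (⨆ j, |(x j : ℝ)|) + ∑ᶠ p : Nat.Primes, ns 𝒜 (some p) (SL.cst x) := by
  have hx' : SL.cst x ≠ 0 := by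
    obtain ⟨l, hl⟩ := Function.ne_iff.mp hx
    apply Function.ne_iff.mpr
    refine ⟨l, ?_⟩
    unfold SL.cst
    simpa using hl
  unfold hs
  rw [Sm_eq_add (FS_ns 𝒜 hx')]
  congr 1
  unfold ns
  congr 2
  funext j
  rw [𝒜.arch]
  unfold SL.cst
  simp

theorem hs_int_le {x : Fin n → ℤ} (hx : x ≠ 0) {R : ℝ} (hR : ∀ j, |(x j : ℝ)| ≤ R) :
    hs 𝒜 (SL.cst x) ≤ Real.log R := by
  rw [hs_int_eq 𝒜 hx]
  obtain ⟨l, hl⟩ := Function.ne_iff.mp hx
  have h1 : ∑ᶠ p : Nat.Primes, ns 𝒜 (some p) (SL.cst x) ≤ 0 := by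
    have := finsum_nonneg (f := fun p : Nat.Primes => - ns 𝒜 (some p) (SL.cst x))
      (fun p => neg_nonneg.mpr (ns_some_int_le 𝒜 x p))
    rw [finsum_neg_distrib] at this
    linarith
  have h0 : 0 < |(x l : ℝ)| := by
    rw [abs_pos]
    exact_mod_cast hl
  have h2 : 0 < ⨆ j, |(x j : ℝ)| :=
    lt_of_lt_of_le h0 (le_ciSup (f := fun j => |(x j : ℝ)|) (Set.finite_range _).bddAbove l)
  have h3 : Real.log (⨆ j, |(x j : ℝ)|) ≤ Real.log R := by
    apply Real.log_le_log h2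
    exact Real.iSup_le hR (le_trans h0.le (hR l))
  linarith

/-- a primitive integral multiple -/
theorem exists_prim {s : Fin n → ℚ} (hs0 : s ≠ 0) :
    ∃ (x : Fin n → ℤ) (c : ℚ), c ≠ 0 ∧ SL.cst x = c • s ∧ ∀ j, |(x j : ℝ)| ≤ Real.exp (hs 𝒜 s) := by
  classical
  obtain ⟨l0, hl0⟩ := Function.ne_iff.mp hs0
  obtain ⟨b, hb⟩ := IsLocalization.exist_integer_multiples_of_finite (nonZeroDivisors ℤ) s
  choose x' hx' using hb
  have hb0 : ((b : ℤ) : ℚ) ≠ 0 := by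
    have := nonZeroDivisors.coe_ne_zero b
    exact_mod_cast this
  have hx'' : ∀ l, (x' l : ℚ) = (b : ℤ) * s l := by
    intro l
    have := hx' l
    simpa [Algebra.smul_def] using this
  obtain ⟨x, hx1, hx2⟩ := Finset.extract_gcd x' (Finset.univ_nonempty_iff.mpr ⟨l0⟩)
  set g : ℤ := Finset.univ.gcd x' with hg
  have hg0 : (g : ℚ) ≠ 0 := by
    intro h0
    have h0' : g = 0 := by exact_mod_cast h0
    have h1 := hx1 l0 (Finset.mem_univ _)
    rw [h0', zero_mul] at h1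
    have h2 := hx'' l0
    rw [h1] at h2
    have : ((b : ℤ) : ℚ) * s l0 ≠ 0 := mul_ne_zero hb0 hl0
    apply this
    rw [← h2]; simp
  have hc : ((b : ℤ) : ℚ) / g ≠ 0 := div_ne_zero hb0 hg0
  have hcst : SL.cst x = (((b : ℤ) : ℚ) / g) • s := by
    funext l
    unfold SL.cst
    rw [Pi.smul_apply, smul_eq_mul, div_mul_eq_mul_div, ← hx'' l, hx1 l (Finset.mem_univ _)]
    push_cast
    field_simp
  have hx0 : x ≠ 0 := by
    rintro rfl
    have h1 := congrFun hcst l0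
    unfold SL.cst at h1
    rw [Pi.smul_apply, smul_eq_mul] at h1
    have : (((b : ℤ) : ℚ) / g) * s l0 ≠ 0 := mul_ne_zero hc hl0
    apply this
    rw [← h1]; simp
  refine ⟨x, ((b : ℤ) : ℚ) / g, hc, hcst, ?_⟩
  have hp : ∀ p : Nat.Primes, ns 𝒜 (some p) (SL.cst x) = 0 := by
    intro p
    have : ∃ j, ¬ ((p : ℕ) : ℤ) ∣ x j := by
      by_contra hcon
      push Not at hcon
      have h1 : ((p : ℕ) : ℤ) ∣ Finset.univ.gcd x := Finset.dvd_gcd (fun j _ => hcon j)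
      rw [hx2] at h1
      have h2 := Int.natAbs_dvd_natAbs.mpr h1
      simp only [Int.natAbs_natCast, Int.natAbs_one, Nat.dvd_one] at h2
      exact p.2.one_lt.ne' h2
    obtain ⟨j, hj⟩ := this
    apply le_antisymm (ns_some_int_le 𝒜 x p)
    unfold ns
    apply Real.log_nonneg
    have h1 : 𝒜.av (some p) (algebraMap ℚ Kb (SL.cst x j)) = 1 := by
      rw [𝒜.padic]
      have : Fact (p : ℕ).Prime := ⟨p.2⟩
      have := (padicNorm.int_eq_one_iff (p := (p : ℕ)) (x j)).mpr hj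
      unfold SL.cst
      exact_mod_cast this
    rw [← h1]
    exact le_sup 𝒜 (SL.cst x) (some p) j
  have h1 : hs 𝒜 s = Real.log (⨆ j, |(x j : ℝ)|) := by
    rw [← hs_smul 𝒜 hs0 hc, ← hcst, hs_int_eq 𝒜 hx0, finsum_congr hp]
    simp
  obtain ⟨l, hl⟩ := Function.ne_iff.mp hx0
  have h0 : 0 < |(x l : ℝ)| := by
    rw [abs_pos]
    exact_mod_cast hl
  have h2 : 0 < ⨆ j, |(x j : ℝ)| :=
    lt_of_lt_of_le h0 (le_ciSup (f := fun j => |(x j : ℝ)|) (Set.finite_range _).bddAbove l)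
  intro j
  rw [h1, Real.exp_log h2]
  exact le_ciSup (f := fun j => |(x j : ℝ)|) (Set.finite_range _).bddAbove j

end Fermat.Agent.S17.Glob
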