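/-
S17 / GLOB / G1     key [S17/G-G1]     (imports Glob/NS)

(G1)  for `s ∈ Sec e`, `Y` a `G`-stable multiset disjoint from `Z s`:   dl(Y, Z s) = card Y * hs s + e * hh Y + O(card Y).
-/
import Fermat.Agent.S17.Glob.NS

set_option autoImplicit false

noncomputable section

namespace Fermat.Agent.S17.Glob

variable {𝒜 : AVFam} {X : Type} [MulAction GQ X] {J : Type} [AddCommGroup J] {Γ : AddSubgroup J}

/-- the sum of the logarithms of a `G`-stable family of nonzero numbers vanishes -/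
theorem Sm_log_msum (𝒜 : AVFam) {α : Type} (Y : Multiset α) (f : α → Kb) (h : ∀ x ∈ Y, f x ≠ 0) :
    (Y.map fun x => Sm (fun v => Real.log (𝒜.av v (f x)))).sum
      = Sm (fun v => Real.log (𝒜.av v (Y.map f).prod)) := by
  induction Y using Multiset.induction_on with
  | empty => simp [Sm_zero]
  | cons a Y ih =>
    have ha : f a ≠ 0 := h a (Multiset.mem_cons_self a Y)
    have hY : ∀ x ∈ Y, f x ≠ 0 := fun x hx => h x (Multiset.mem_cons_of_mem hx)
    have hp : (Y.map f).prod ≠ 0 := by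
      apply Multiset.prod_ne_zero
      intro h0
      obtain ⟨x, hx, hx0⟩ := Multiset.mem_map.mp h0
      exact hY x hx hx0
    rw [Multiset.map_cons, Multiset.sum_cons, ih hY, ← Sm_add (FS_log_av 𝒜 ha) (FS_log_av 𝒜 hp)]
    apply Sm_congr
    intro v
    rw [Multiset.map_cons, Multiset.prod_cons, map_mul, Real.log_mul]
    · exact ((𝒜.av v).pos ha).ne'
    · exact ((𝒜.av v).pos hp).ne'

namespace HtData

variable (D : HtData 𝒜 X Γ)

theorem val_smul (σ : GQ) (e : ℕ) (s : D.Sec e) (x : X) : σ (D.val e s x) = D.val e s (σ • x) := by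
  unfold val
  rw [map_sum]
  apply Finset.sum_congr rfl
  intro l _
  rw [map_mul, AlgEquiv.commutes, D.ev_smul]

theorem val_eq_zero_iff {e : ℕ} {s : D.Sec e} (hs0 : s ≠ 0) (x : X) : D.val e s x = 0 ↔ x ∈ D.Z e s :=
  (D.mem_Z e s x hs0).symm

theorem hx_nonneg (x : X) : 0 ≤ D.hx x := Sm_nonneg (fun v => D.nx_nonneg v x)

theorem hh_nonneg (Y : Multiset X) : 0 ≤ D.hh Y := by
  apply Multiset.sum_nonneg
  intro a ha
  obtain ⟨x, -, rfl⟩ := Multiset.mem_map.mp ha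
  exact D.hx_nonneg x

/-- the product of the values of a rational section over a stable multiset has trivial height -/
theorem Sm_log_val_stab {e : ℕ} {s : D.Sec e} (hs0 : s ≠ 0) {Y : Multiset X} (hY : Stab Y)
    (hd : ∀ x ∈ Y, x ∉ D.Z e s) :
    (Y.map fun x => Sm (fun v => Real.log (𝒜.av v (D.val e s x)))).sum = 0 := by
  have h0 : ∀ x ∈ Y, D.val e s x ≠ 0 := fun x hx h => hd x hx ((D.val_eq_zero_iff hs0 x).mp h)
  rw [Sm_log_msum 𝒜 Y _ h0]
  apply Sm_log_fixed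
  · apply Multiset.prod_ne_zero
    intro h1
    obtain ⟨x, hx, hx0⟩ := Multiset.mem_map.mp h1
    exact h0 x hx hx0
  · intro σ
    rw [map_multiset_prod, Multiset.map_map]
    conv_rhs => rw [← hY σ]
    rw [Multiset.map_map]
    congr 1
    apply Multiset.map_congr rfl
    intro x _
    exact D.val_smul σ e s x

theorem g1_point {e : ℕ} {γ : Pl → ℝ} (hγ : FS γ)
    (h : ∀ v (s : D.Sec e) x, s ≠ 0 → x ∉ D.Z e s →
      |Real.log (𝒜.av v (∑ l, algebraMap ℚ Kb (s l) * D.ev e l x)) - ns 𝒜 v s - e * D.nx v x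
        + ((D.Z e s).map (fun t => D.lam v x t)).sum| ≤ γ v)
    {s : D.Sec e} (hs0 : s ≠ 0) {x : X} (hx : x ∉ D.Z e s) :
    |Sm (fun v => Real.log (𝒜.av v (D.val e s x))) - hs 𝒜 s - e * D.hx x
      + ((D.Z e s).map (fun t => D.LL x t)).sum| ≤ Sm γ := by
  have hv : D.val e s x ≠ 0 := fun h0 => hx ((D.val_eq_zero_iff hs0 x).mp h0)
  have f1 := FS_log_av 𝒜 hv
  have f2 := FS_ns 𝒜 hs0
  have f3 := (D.nx_fs x).const_mul (e : ℝ)
  have f4 : ∀ t ∈ D.Z e s, FS (fun v => D.lam v x t) := by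
    intro t ht
    apply D.lam_fs
    rintro rfl
    exact hx ht
  have f5 := FS.msum (D.Z e s) f4
  have key : Sm (fun v => Real.log (𝒜.av v (D.val e s x)) - ns 𝒜 v s - e * D.nx v x
        + ((D.Z e s).map (fun t => D.lam v x t)).sum)
      = Sm (fun v => Real.log (𝒜.av v (D.val e s x))) - hs 𝒜 s - e * D.hx x
      + ((D.Z e s).map (fun t => D.LL x t)).sum := by
    rw [Sm_add ((f1.sub f2).sub f3) f5, Sm_sub (f1.sub f2) f3, Sm_sub f1 f2, Sm_const_mul _ (D.nx_fs x),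
      Sm_msum _ f4]
    rfl
  rw [← key]
  exact abs_Sm_le hγ (fun v => h v s x hs0 hx)

theorem g1_aux {e : ℕ} {C : ℝ} {s : D.Sec e}
    (h : ∀ x, x ∉ D.Z e s → |Sm (fun v => Real.log (𝒜.av v (D.val e s x))) - hs 𝒜 s - e * D.hx x
      + ((D.Z e s).map (fun t => D.LL x t)).sum| ≤ C) (Y : Multiset X)
    (hd : ∀ x ∈ Y, x ∉ D.Z e s) :
    |(Y.map fun x => Sm (fun v => Real.log (𝒜.av v (D.val e s x)))).sum - Y.card * hs 𝒜 s - e * D.hh Y
      + D.dl Y (D.Z e s)| ≤ Y.card * C := by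
  induction Y using Multiset.induction_on with
  | empty => simp [hh, dl]
  | cons a Y ih =>
    have h1 := h a (hd a (Multiset.mem_cons_self a Y))
    have h2 := ih (fun x hx => hd x (Multiset.mem_cons_of_mem hx))
    unfold hh dl at *
    rw [Multiset.map_cons, Multiset.sum_cons, Multiset.map_cons, Multiset.sum_cons, Multiset.map_cons,
      Multiset.sum_cons, Multiset.card_cons]
    push_cast
    rw [abs_le] at *
    constructor <;> nlinarith [h1.1, h1.2, h2.1, h2.2]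

theorem g1 (e : ℕ) : ∃ C : ℝ, 0 ≤ C ∧ ∀ (s : D.Sec e) (Y : Multiset X), s ≠ 0 → Stab Y →
    Disjoint Y (D.Z e s) →
    |D.dl Y (D.Z e s) - Y.card * hs 𝒜 s - e * D.hh Y| ≤ Y.card * C := by
  obtain ⟨γ, hγ, h⟩ := D.e1 e
  refine ⟨|Sm γ|, abs_nonneg _, ?_⟩
  intro s Y hs0 hY hd
  have hd' : ∀ x ∈ Y, x ∉ D.Z e s := fun x hx => Multiset.disjoint_left.mp hd hx
  have h1 := D.g1_aux (C := |Sm γ|) (s := s)
    (fun x hx => le_trans (D.g1_point hγ h hs0 hx) (le_abs_self _)) Y hd'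
  rw [D.Sm_log_val_stab hs0 hY hd'] at h1
  have : D.dl Y (D.Z e s) - Y.card * hs 𝒜 s - e * D.hh Y
      = 0 - Y.card * hs 𝒜 s - e * D.hh Y + D.dl Y (D.Z e s) := by ring
  rw [this]
  exact h1

end HtData

end Fermat.Agent.S17.Glob
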