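/-
S17 / GLOB / G2     key [S17/G-G2]     (imports G1, BForm)

(G2)  n0 * hs s = hh (Z s) + O(1).      (PB)  |B(Y, Z s)| ≤ C  for `Y` stable, `card Y ≤ nmax`, disjoint from `Z s`.
PROOF of g2.  The `e n0 + 1` multisets `P_a = Z 1 (pa a)`, `a ≤ e n0`, are pairwise disjoint and `Z s` has `e n0` elements: some `P_a` is disjoint from `Z s`
 (otherwise choose `x_a ∈ P_a ∩ Z s`: an injection `Fin (e n0 + 1) → (Z s).toFinset`).
 g1 for (s, Y = P_a):      |dl(P_a, Z s) - n0 hs s - e hh P_a| ≤ n0 C_e          (card P_a = 1 * n0, P_a stable)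
 g1 for (pa a, Y = Z s):   |dl(Z s, P_a) - e n0 hs (pa a) - 1 * hh (Z s)| ≤ e n0 C_1.
 `dl_comm`.  So |n0 hs s - hh (Z s)| ≤ n0 C_e + e n0 C_1 + e max_a hh P_a + e n0 max_a |hs (pa a)|  (max over `a ≤ e n0`: use sums over `Finset.range (e n0 + 1)`).
PROOF of pb.  B(Y, Z s) = e n0 hh Y + card Y hh (Z s) - n0 dl(Y, Z s);  by g1: n0 dl = n0 card Y hs s + e n0 hh Y ± n0 card Y C_e;  by g2: hh (Z s) = n0 hs s ± C.
 So |B| ≤ card Y (C + n0 C_e) ≤ nmax (C + n0 C_e).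
-/
import Fermat.Agent.S17.Glob.G1
import Fermat.Agent.S17.Glob.BForm

set_option autoImplicit false

noncomputable section

namespace Fermat.Agent.S17.Glob

variable {𝒜 : AVFam} {X : Type} [MulAction GQ X] {J : Type} [AddCommGroup J] {Γ : AddSubgroup J}

namespace HtData

variable (D : HtData 𝒜 X Γ)

/-- some `P_a`, `a ≤ e n0`, is disjoint from `Z s` -/
theorem g2_exists_disj (e : ℕ) (s : D.Sec e) (hs0 : s ≠ 0) :
    ∃ a ∈ Finset.range (e * D.n0 + 1), Disjoint (D.Z 1 (D.pa a)) (D.Z e s) := by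
  classical
  by_contra hcon
  push Not at hcon
  have hex : ∀ a ∈ Finset.range (e * D.n0 + 1), ∃ x, x ∈ D.Z 1 (D.pa a) ∧ x ∈ D.Z e s := by
    intro a ha
    have h1 := hcon a ha
    rw [Multiset.disjoint_left] at h1
    push Not at h1
    exact h1
  have : Nonempty X := ⟨D.oo⟩
  choose! x hx1 hx2 using hex
  have hcard : (Finset.range (e * D.n0 + 1)).card ≤ (D.Z e s).toFinset.card := by
    refine Finset.card_le_card_of_injOn x (fun a ha => Multiset.mem_toFinset.2 (hx2 a ha)) ?_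
    intro a ha b hb hab
    by_contra hne
    have h1 := D.pa_disj a b hne
    rw [Multiset.disjoint_left] at h1
    exact h1 (hx1 a ha) (hab ▸ hx1 b hb)
  have h2 := Multiset.toFinset_card_le (D.Z e s)
  rw [D.Z_card e s hs0] at h2
  rw [Finset.card_range] at hcard
  omega

theorem g2 (e : ℕ) : ∃ C : ℝ, ∀ s : D.Sec e, s ≠ 0 → |D.n0 * hs 𝒜 s - D.hh (D.Z e s)| ≤ C := by
  obtain ⟨Ce, hCe0, hCe⟩ := D.g1 e
  obtain ⟨C1, hC10, hC1⟩ := D.g1 1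
  refine ⟨D.n0 * Ce + e * D.n0 * C1 + ∑ a ∈ Finset.range (e * D.n0 + 1),
    (e * D.hh (D.Z 1 (D.pa a)) + e * D.n0 * |hs 𝒜 (D.pa a)|), fun s hs0 => ?_⟩
  obtain ⟨a, ha, hdisj⟩ := D.g2_exists_disj e s hs0
  have h1 := hCe s (D.Z 1 (D.pa a)) hs0 (D.Z_stab 1 _ (D.pa_ne a)) hdisj
  have h2 := hC1 (D.pa a) (D.Z e s) (D.pa_ne a) (D.Z_stab e s hs0) hdisj.symm
  rw [D.Z_card 1 _ (D.pa_ne a)] at h1
  rw [D.Z_card e s hs0, D.dl_comm] at h2
  have h3 : e * D.hh (D.Z 1 (D.pa a)) + e * D.n0 * |hs 𝒜 (D.pa a)| ≤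
      ∑ a ∈ Finset.range (e * D.n0 + 1),
        (e * D.hh (D.Z 1 (D.pa a)) + e * D.n0 * |hs 𝒜 (D.pa a)|) :=
    Finset.single_le_sum (f := fun a => (e * D.hh (D.Z 1 (D.pa a)) + e * D.n0 * |hs 𝒜 (D.pa a)| : ℝ))
      (fun b _ => add_nonneg (mul_nonneg (Nat.cast_nonneg _) (D.hh_nonneg _))
        (mul_nonneg (mul_nonneg (Nat.cast_nonneg _) (Nat.cast_nonneg _)) (abs_nonneg _))) ha
  have h4 : 0 ≤ (e : ℝ) * D.hh (D.Z 1 (D.pa a)) := mul_nonneg (Nat.cast_nonneg _) (D.hh_nonneg _)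
  have h5 : |(e : ℝ) * D.n0 * hs 𝒜 (D.pa a)| = e * D.n0 * |hs 𝒜 (D.pa a)| := by
    rw [abs_mul, abs_of_nonneg (mul_nonneg (Nat.cast_nonneg _) (Nat.cast_nonneg _))]
  have h6 := le_abs_self ((e : ℝ) * D.n0 * hs 𝒜 (D.pa a))
  have h7 := neg_abs_le ((e : ℝ) * D.n0 * hs 𝒜 (D.pa a))
  push_cast at h1 h2
  rw [abs_le] at h1 h2 ⊢
  constructor <;> nlinarith [h1.1, h1.2, h2.1, h2.2]

theorem pb (e nmax : ℕ) : ∃ C : ℝ, ∀ (s : D.Sec e) (Y : Multiset X), s ≠ 0 → Stab Y → Y.card ≤ nmax →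
    Disjoint Y (D.Z e s) → |D.B Y (D.Z e s)| ≤ C := by
  obtain ⟨Ce, hCe0, hCe⟩ := D.g1 e
  obtain ⟨C, hC⟩ := D.g2 e
  refine ⟨nmax * (|C| + D.n0 * Ce), fun s Y hs0 hY hcard hdisj => ?_⟩
  have h1 := hCe s Y hs0 hY hdisj
  have h2 := (hC s hs0).trans (le_abs_self C)
  have h3 : D.B Y (D.Z e s) = Y.card * (D.hh (D.Z e s) - D.n0 * hs 𝒜 s) -
      D.n0 * (D.dl Y (D.Z e s) - Y.card * hs 𝒜 s - e * D.hh Y) := by
    rw [HtData.B, D.Z_card e s hs0]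
    push_cast
    ring
  have h4 : |(Y.card : ℝ) * (D.hh (D.Z e s) - D.n0 * hs 𝒜 s)| ≤ Y.card * |C| := by
    rw [abs_mul, abs_of_nonneg (Nat.cast_nonneg _), abs_sub_comm]
    exact mul_le_mul_of_nonneg_left h2 (Nat.cast_nonneg _)
  have h5 : |(D.n0 : ℝ) * (D.dl Y (D.Z e s) - Y.card * hs 𝒜 s - e * D.hh Y)| ≤
      D.n0 * (Y.card * Ce) := by
    rw [abs_mul, abs_of_nonneg (Nat.cast_nonneg _)]
    exact mul_le_mul_of_nonneg_left h1 (Nat.cast_nonneg _)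
  have h6 : (Y.card : ℝ) ≤ nmax := by exact_mod_cast hcard
  have h7 : 0 ≤ |C| + D.n0 * Ce := add_nonneg (abs_nonneg _) (mul_nonneg (Nat.cast_nonneg _) hCe0)
  calc |D.B Y (D.Z e s)| ≤ Y.card * |C| + D.n0 * (Y.card * Ce) := by
        rw [h3]
        exact (abs_sub _ _).trans (add_le_add h4 h5)
    _ = Y.card * (|C| + D.n0 * Ce) := by ring
    _ ≤ nmax * (|C| + D.n0 * Ce) := mul_le_mul_of_nonneg_right h6 h7

end HtData

end Fermat.Agent.S17.Glob
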