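/-
S17 / GLOB / GL     key [S17/G-GL]     (imports G2)

(GL)  cl T1 = cl T2, both disjoint from Y', oo ∉ Y'   ⟹   |B(T1,Y') - B(T2,Y')| ≤ C   (all cardinalities ≤ nmax).
PROOF.  `m` from `D.pair nmax`, `P = Y'.toFinset`: sections `s w`, `R`, `a b` with `Z s = T1 + R + a oo`, `Z w = T2 + R + b oo`, `R` disjoint from `Y'`.
 `Y'` is disjoint from `Z s`, `Z w` and from `Z 1 one = n0 oo`.   `C1` from `pb m nmax`, `C0` from `pb 1 nmax`.
 B(Y', Z s) = B(Y',T1) + B(Y',R) + a B(Y',{oo}),  same for `w` (`B_add_right`, `B_nsmul_right`);  n0 B(Y',{oo}) = B(Y', Z one), so |B(Y',{oo})| ≤ C0  (n0 ≥ 1).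
 a, b ≤ m n0 (`Z_card`).  Hence |B(Y',T1) - B(Y',T2)| ≤ 2 C1 + m n0 C0.  `B_comm`.
-/
import Fermat.Agent.S17.Glob.G2

set_option autoImplicit false

noncomputable section

namespace Fermat.Agent.S17.Glob

variable {𝒜 : AVFam} {X : Type} [MulAction GQ X] {J : Type} [AddCommGroup J] {Γ : AddSubgroup J}

namespace HtData

variable (D : HtData 𝒜 X Γ)

theorem gl (nmax : ℕ) : ∃ C : ℝ, ∀ T1 T2 Y' : Multiset X, Stab T1 → Stab T2 → Stab Y' →
    T1.card ≤ nmax → T2.card ≤ nmax → Y'.card ≤ nmax → D.cl T1 = D.cl T2 →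
    Disjoint T1 Y' → Disjoint T2 Y' → D.oo ∉ Y' → |D.B T1 Y' - D.B T2 Y'| ≤ C := by
  classical
  obtain ⟨m, hm⟩ := D.pair nmax
  obtain ⟨C1, hC1⟩ := D.pb m nmax
  obtain ⟨C0, hC0⟩ := D.pb 1 nmax
  refine ⟨2 * C1 + (m * D.n0 : ℕ) * C0, ?_⟩
  intro T1 T2 Y' h1 h2 hY c1 c2 cY hcl d1 d2 hoo
  obtain ⟨s, w, R, a, b, hs, hw, hZs, hZw, hR⟩ := hm T1 T2 h1 h2 c1 c2 hcl Y'.toFinset
  have hdoo : ∀ k : ℕ, Disjoint Y' (k • ({D.oo} : Multiset X)) := by
    intro k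
    rw [Multiset.disjoint_left]
    intro x hx hx'
    have := Multiset.mem_of_mem_nsmul hx'
    rw [Multiset.mem_singleton] at this
    exact hoo (this ▸ hx)
  have hdR : Disjoint Y' R := by
    rw [Multiset.disjoint_left]
    intro x hx hx'
    exact hR x hx' (Multiset.mem_toFinset.2 hx)
  have hds : Disjoint Y' (D.Z m s) := by
    rw [hZs, Multiset.disjoint_add_right, Multiset.disjoint_add_right]
    exact ⟨⟨d1.symm, hdR⟩, hdoo a⟩
  have hdw : Disjoint Y' (D.Z m w) := by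
    rw [hZw, Multiset.disjoint_add_right, Multiset.disjoint_add_right]
    exact ⟨⟨d2.symm, hdR⟩, hdoo b⟩
  have hd1 : Disjoint Y' (D.Z 1 D.one) := by
    rw [D.Z_one]; exact hdoo _
  have e1 := hC1 s Y' hs hY cY hds
  have e2 := hC1 w Y' hw hY cY hdw
  have e0 := hC0 D.one Y' D.one_ne hY cY hd1
  rw [hZs, B_add_right, B_add_right, B_nsmul_right] at e1
  rw [hZw, B_add_right, B_add_right, B_nsmul_right] at e2
  rw [D.Z_one, B_nsmul_right] at e0
  have hn0 : (1 : ℝ) ≤ D.n0 := by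
    have := D.hg
    exact_mod_cast (by omega : 1 ≤ D.n0)
  set Boo := D.B Y' {D.oo} with hBoo
  have hC0' : 0 ≤ C0 := le_trans (abs_nonneg _) e0
  have hBoo' : |Boo| ≤ C0 := by
    rw [abs_mul, abs_of_nonneg (by linarith : (0 : ℝ) ≤ D.n0)] at e0
    nlinarith [abs_nonneg Boo]
  have ha : a ≤ m * D.n0 := by
    have := D.Z_card m s hs
    rw [hZs, Multiset.card_add, Multiset.card_add, Multiset.card_nsmul, Multiset.card_singleton] at this
    omega
  have hb : b ≤ m * D.n0 := by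
    have := D.Z_card m w hw
    rw [hZw, Multiset.card_add, Multiset.card_add, Multiset.card_nsmul, Multiset.card_singleton] at this
    omega
  have hab : |(a : ℝ) - b| ≤ ((m * D.n0 : ℕ) : ℝ) := by
    have ha' : (a : ℝ) ≤ ((m * D.n0 : ℕ) : ℝ) := by exact_mod_cast ha
    have hb' : (b : ℝ) ≤ ((m * D.n0 : ℕ) : ℝ) := by exact_mod_cast hb
    have ha0 : (0 : ℝ) ≤ a := Nat.cast_nonneg _
    have hb0 : (0 : ℝ) ≤ b := Nat.cast_nonneg _
    rw [abs_le]; constructor <;> linarith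
  have hprod : |((a : ℝ) - b) * Boo| ≤ ((m * D.n0 : ℕ) : ℝ) * C0 := by
    rw [abs_mul]
    exact mul_le_mul hab hBoo' (abs_nonneg _) (Nat.cast_nonneg _)
  rw [D.B_comm T1 Y', D.B_comm T2 Y']
  rw [abs_le] at e1 e2 hprod ⊢
  constructor <;> nlinarith [e1.1, e1.2, e2.1, e2.2, hprod.1, hprod.2]

end HtData

end Fermat.Agent.S17.Glob
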