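/-
S17 / GLOB / Bet     key [S17/G-BET]     (imports GL)

`IsRep c Y` : `Y` is a stable multiset avoiding `oo` with class `c`.
exists_bet.  For `c c' : Γ` choose (Classical.choose, `D.rep`) `Y0 = Y0(c)` (P = ∅) and `Y0' = Y0'(c,c')` (P = Y0), `bet c c' := B(Y0, Y0')`.
 Given other representatives `Y, Y'` (disjoint, card ≤ nmax): choose `Y1'` of class `c'` avoiding `Y0 ∪ Y` (`D.rep`, P = Y0 ∪ Y.toFinset).  With `C` from `gl (max nmax n0)`:
   B(Y0,Y0') ≈ B(Y0,Y1')   [gl in the 2nd variable (`B_comm`): Y0', Y1' disjoint from Y0, oo ∉ Y0]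
            ≈ B(Y,Y1')    [gl: Y0, Y disjoint from Y1', oo ∉ Y1']
            ≈ B(Y,Y')     [gl in the 2nd variable: Y1', Y' disjoint from Y, oo ∉ Y].       Total error 3 C.
exists_beta.  β c c' := (bet c c' + bet c' c) / 2.  Symmetric.  `|β c c' - B(Y,Y')| ≤ C` from exists_bet twice + `B_comm`.
 Quasi-additivity: Ya, Yb, Yab, Yc representatives (card n0) of a, b, a+b, c with Yc disjoint from the three others (choose Yc last).
   β(a+b,c) ≈ B(Yab,Yc) ≈ B(Ya + Yb, Yc) [gl with nmax = 2 n0: cl (Ya + Yb) = a + b = cl Yab] = B(Ya,Yc) + B(Yb,Yc) ≈ β(a,c) + β(b,c).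
-/
import Fermat.Agent.S17.Glob.GL

set_option autoImplicit false

noncomputable section

namespace Fermat.Agent.S17.Glob

variable {𝒜 : AVFam} {X : Type} [MulAction GQ X] {J : Type} [AddCommGroup J] {Γ : AddSubgroup J}

namespace HtData

variable (D : HtData 𝒜 X Γ)

/-- `Y` represents the class `c` -/
structure IsRep (c : Γ) (Y : Multiset X) : Prop where
  stab : Stab Y
  oo : D.oo ∉ Y
  cl : D.cl Y = c

/-- `β` computes `B` on representatives, up to `O(1)` -/
def Computes (β : Γ → Γ → ℝ) : Prop :=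
  ∀ nmax : ℕ, ∃ C : ℝ, ∀ (c c' : Γ) (Y Y' : Multiset X), D.IsRep c Y → D.IsRep c' Y' →
    Y.card ≤ nmax → Y'.card ≤ nmax → Disjoint Y Y' → |β c c' - D.B Y Y'| ≤ C

theorem bet_exists_rep (c : Γ) (P : Finset X) : ∃ Y : Finset X, D.IsRep c Y.val ∧ Y.card = D.n0 ∧
    ∀ x ∈ Y, x ∉ P := by
  obtain ⟨Y, h1, h2, h3, h4, h5⟩ := D.rep c c.2 P
  exact ⟨Y, ⟨h1, h3, h5⟩, h2, fun x hx => Finset.disjoint_left.1 h4 hx⟩

theorem exists_bet : ∃ bet : Γ → Γ → ℝ, D.Computes bet := by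
  classical
  choose Y0 hY0 hY0c _ using fun c : Γ => D.bet_exists_rep c ∅
  choose Y0' hY0' hY0'c hY0'd using fun c c' : Γ => D.bet_exists_rep c' (Y0 c)
  refine ⟨fun c c' => D.B (Y0 c).val (Y0' c c').val, fun nmax => ?_⟩
  obtain ⟨C, hC⟩ := D.gl (max nmax D.n0)
  refine ⟨3 * C, fun c c' Y Y' hY hY' cY cY' hd => ?_⟩
  obtain ⟨Y1, hY1, hY1c, hY1d⟩ := D.bet_exists_rep c' (Y0 c ∪ Y.toFinset)
  have k0 : (Y0 c).val.card ≤ max nmax D.n0 := by
    have : (Y0 c).val.card = D.n0 := hY0c c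
    rw [this]; exact le_max_right _ _
  have k0' : (Y0' c c').val.card ≤ max nmax D.n0 := by
    have : (Y0' c c').val.card = D.n0 := hY0'c c c'
    rw [this]; exact le_max_right _ _
  have k1 : Y1.val.card ≤ max nmax D.n0 := by
    have : Y1.val.card = D.n0 := hY1c
    rw [this]; exact le_max_right _ _
  have kY : Y.card ≤ max nmax D.n0 := le_trans cY (le_max_left _ _)
  have kY' : Y'.card ≤ max nmax D.n0 := le_trans cY' (le_max_left _ _)
  have d1 : Disjoint (Y0' c c').val (Y0 c).val :=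
    Multiset.disjoint_left.2 fun {x} hx => hY0'd c c' x hx
  have d2 : Disjoint Y1.val (Y0 c).val :=
    Multiset.disjoint_left.2 fun {x} hx hx' => hY1d x hx (Finset.mem_union_left _ hx')
  have d3 : Disjoint Y1.val Y :=
    Multiset.disjoint_left.2 fun {x} hx hx' =>
      hY1d x hx (Finset.mem_union_right _ (Multiset.mem_toFinset.2 hx'))
  have s1 := hC _ _ _ (hY0' c c').stab hY1.stab (hY0 c).stab k0' k1 k0
    ((hY0' c c').cl.trans hY1.cl.symm) d1 d2 (hY0 c).oo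
  have s2 := hC _ _ _ (hY0 c).stab hY.stab hY1.stab k0 kY k1
    ((hY0 c).cl.trans hY.cl.symm) d2.symm d3.symm hY1.oo
  have s3 := hC _ _ _ hY1.stab hY'.stab hY.stab k1 kY' kY
    (hY1.cl.trans hY'.cl.symm) d3 hd.symm hY.oo
  rw [D.B_comm (Y0' c c').val, D.B_comm Y1.val (Y0 c).val] at s1
  rw [D.B_comm Y1.val Y, D.B_comm Y' Y] at s3
  show |D.B (Y0 c).val (Y0' c c').val - D.B Y Y'| ≤ 3 * C
  rw [abs_le] at s1 s2 s3 ⊢
  constructor <;> linarith [s1.1, s1.2, s2.1, s2.2, s3.1, s3.2]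

theorem exists_beta : ∃ β : Γ → Γ → ℝ, (∀ a b, β a b = β b a) ∧
    (∃ C : ℝ, ∀ a b c, |β (a + b) c - β a c - β b c| ≤ C) ∧ D.Computes β := by
  classical
  obtain ⟨bet, hbet⟩ := D.exists_bet
  have hcomp : D.Computes (fun c c' => (bet c c' + bet c' c) / 2) := by
    intro nmax
    obtain ⟨C, hC⟩ := hbet nmax
    refine ⟨C, fun c c' Y Y' hY hY' cY cY' hd => ?_⟩
    have e1 := hC c c' Y Y' hY hY' cY cY' hd
    have e2 := hC c' c Y' Y hY' hY cY' cY hd.symm
    rw [D.B_comm Y' Y] at e2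
    show |(bet c c' + bet c' c) / 2 - D.B Y Y'| ≤ C
    rw [abs_le] at e1 e2 ⊢
    constructor <;> linarith [e1.1, e1.2, e2.1, e2.2]
  refine ⟨fun c c' => (bet c c' + bet c' c) / 2, fun a b => ?_, ?_, hcomp⟩
  · show (bet a b + bet b a) / 2 = (bet b a + bet a b) / 2
    rw [add_comm]
  · obtain ⟨C1, hC1⟩ := hcomp (2 * D.n0)
    obtain ⟨C2, hC2⟩ := D.gl (2 * D.n0)
    refine ⟨3 * C1 + C2, fun a b c => ?_⟩
    obtain ⟨Ya, hYa, cYa, -⟩ := D.bet_exists_rep a ∅
    obtain ⟨Yb, hYb, cYb, -⟩ := D.bet_exists_rep b ∅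
    obtain ⟨Yab, hYab, cYab, -⟩ := D.bet_exists_rep (a + b) ∅
    obtain ⟨Yc, hYc, cYc, dYc⟩ := D.bet_exists_rep c (Ya ∪ Yb ∪ Yab)
    have ka : Ya.val.card ≤ 2 * D.n0 := by
      have : Ya.val.card = D.n0 := cYa
      omega
    have kb : Yb.val.card ≤ 2 * D.n0 := by
      have : Yb.val.card = D.n0 := cYb
      omega
    have kab : Yab.val.card ≤ 2 * D.n0 := by
      have : Yab.val.card = D.n0 := cYab
      omega
    have kc : Yc.val.card ≤ 2 * D.n0 := by
      have : Yc.val.card = D.n0 := cYc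
      omega
    have ks : (Ya.val + Yb.val).card ≤ 2 * D.n0 := by
      have h1 : Ya.val.card = D.n0 := cYa
      have h2 : Yb.val.card = D.n0 := cYb
      rw [Multiset.card_add]
      omega
    have da : Disjoint Ya.val Yc.val :=
      Multiset.disjoint_right.2 fun {x} hx hx' =>
        dYc x hx (Finset.mem_union_left _ (Finset.mem_union_left _ hx'))
    have db : Disjoint Yb.val Yc.val :=
      Multiset.disjoint_right.2 fun {x} hx hx' =>
        dYc x hx (Finset.mem_union_left _ (Finset.mem_union_right _ hx'))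
    have dab : Disjoint Yab.val Yc.val :=
      Multiset.disjoint_right.2 fun {x} hx hx' => dYc x hx (Finset.mem_union_right _ hx')
    have e1 := hC1 (a + b) c _ _ hYab hYc kab kc dab
    have e2 := hC1 a c _ _ hYa hYc ka kc da
    have e3 := hC1 b c _ _ hYb hYc kb kc db
    have hcl : D.cl Yab.val = D.cl (Ya.val + Yb.val) := by
      rw [map_add, hYab.cl, hYa.cl, hYb.cl]
      rfl
    have e4 := hC2 _ _ _ hYab.stab (hYa.stab.add hYb.stab) hYc.stab kab ks kc hcl dab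
      (Multiset.disjoint_add_left.2 ⟨da, db⟩) hYc.oo
    rw [D.B_add_left] at e4
    rw [abs_le] at e1 e2 e3 e4 ⊢
    constructor <;> linarith [e1.1, e1.2, e2.1, e2.2, e3.1, e3.2, e4.1, e4.2]

end HtData

end Fermat.Agent.S17.Glob
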