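/-
S17 / GLOB / G3     key [S17/G-G3]     (imports Sum, BForm)

(G3)  H(Y) = m hh(Y) - dlp(Y) + O(1).     (G3')  n0 H(Y) = Th(Y) + (dW m - d) hh(Y) + O(1).
PROOF of g3.  `γ` from `D.det m d hdm`, `C = Sm γ`.  F v = Hl m y v - m ∑_i nx v (y i) + ∑_i ∑_j [i<j] lam v (y i) (y j), `|F v| ≤ γ v`.
 The 2nd and 3rd terms are `FS` (`nx_fs`, `lam_fs` with `y i ≠ y j`, `FS.fsum`), hence `Hl m y` is `FS` (`FS.of_abs_le` for F, then add back).
 `Sm F = HH m y - m ∑_i hx (y i) + ∑_{i<j} LL (y i) (y j)`;   `∑_i hx (y i) = hh Y.val` (`Finset.sum_image`, `Finset.sum_eq_multiset_sum`);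
 `∑_i ∑_j [i<j] LL = (1/2) ∑_{i ≠ j} LL = dlp2 Y / 2`  (`LL_comm`; `Y.offDiag` = image of `{(i,j) | i ≠ j}` under `y × y`).
PROOF of g3'.  Th Y + (dW m - d) hh = (dW m + g - 1) hh - n0 dlp2/2 = m n0 hh - n0 dlp2/2   by `D.dW_eq m hm`;  multiply g3 by `n0`.
-/
import Fermat.Agent.S17.Glob.Sum
import Fermat.Agent.S17.Glob.BForm

set_option autoImplicit false

noncomputable section

namespace Fermat.Agent.S17.Glob

variable {𝒜 : AVFam} {X : Type} [MulAction GQ X] [DecidableEq X] {J : Type} [AddCommGroup J]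
  {Γ : AddSubgroup J}

namespace HtData

variable (D : HtData 𝒜 X Γ)

omit [DecidableEq X] in
theorem g3_sum_lt {d : ℕ} (f : Fin d → Fin d → ℝ) (hf : ∀ i j, f i j = f j i) :
    ∑ i, ∑ j, (if i ≠ j then f i j else 0) = 2 * ∑ i, ∑ j, (if i < j then f i j else 0) := by
  have h1 : ∑ i, ∑ j, (if i ≠ j then f i j else 0) =
      ∑ i, ∑ j, (if i < j then f i j else 0) + ∑ i, ∑ j, (if j < i then f i j else 0) := by
    rw [← Finset.sum_add_distrib]
    refine Finset.sum_congr rfl fun i _ => ?_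
    rw [← Finset.sum_add_distrib]
    refine Finset.sum_congr rfl fun j _ => ?_
    rcases lt_trichotomy i j with h | h | h
    · simp [h, h.ne, h.le.not_gt]
    · simp [h]
    · simp [h, h.ne', h.le.not_gt]
  have h2 : ∑ i, ∑ j, (if j < i then f i j else 0) = ∑ i, ∑ j, (if i < j then f i j else 0) := by
    rw [Finset.sum_comm]
    refine Finset.sum_congr rfl fun i _ => Finset.sum_congr rfl fun j _ => ?_
    rw [hf]
  rw [h1, h2]
  ring

theorem g3_dlp2 {d : ℕ} (Y : Finset X) (y : Fin d → X) (hy : Function.Injective y)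
    (hY : Finset.univ.image y = Y) :
    D.dlp2 Y = 2 * ∑ i, ∑ j, (if i < j then D.LL (y i) (y j) else 0) := by
  rw [← g3_sum_lt (fun i j => D.LL (y i) (y j)) (fun i j => D.LL_comm _ _)]
  unfold dlp2
  have h1 : Y.offDiag = ((Finset.univ : Finset (Fin d)).offDiag).image (fun z => (y z.1, y z.2)) := by
    ext ⟨a, b⟩
    simp only [Finset.mem_offDiag, Finset.mem_image, Finset.mem_univ, true_and, Prod.mk.injEq,
      Prod.exists, ← hY]
    constructor
    · rintro ⟨⟨i, rfl⟩, ⟨j, rfl⟩, hne⟩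
      exact ⟨i, j, fun h => hne (by rw [h]), rfl, rfl⟩
    · rintro ⟨i, j, hne, rfl, rfl⟩
      exact ⟨⟨i, rfl⟩, ⟨j, rfl⟩, fun h => hne (hy h)⟩
  rw [h1, Finset.sum_image]
  · have h2 : (Finset.univ : Finset (Fin d)).offDiag =
        Finset.univ.filter (fun z : Fin d × Fin d => z.1 ≠ z.2) := by
      ext z
      simp
    rw [h2, Finset.sum_filter, Fintype.sum_prod_type]
  · rintro ⟨a, b⟩ _ ⟨a', b'⟩ _ h
    simp only [Prod.mk.injEq] at h
    rw [hy h.1, hy h.2]

theorem g3_hh {d : ℕ} (Y : Finset X) (y : Fin d → X) (hy : Function.Injective y)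
    (hY : Finset.univ.image y = Y) : D.hh Y.val = ∑ i, D.hx (y i) := by
  unfold hh
  rw [← hY]
  show ∑ x ∈ Finset.univ.image y, D.hx x = _
  rw [Finset.sum_image (fun a _ b _ h => hy h)]

theorem g3 (m d : ℕ) (hdm : d ≤ m) : ∃ C : ℝ, ∀ (Y : Finset X) (y : Fin d → X), Function.Injective y →
    Finset.univ.image y = Y → |D.HH m y - m * D.hh Y.val + D.dlp2 Y / 2| ≤ C := by
  obtain ⟨γ, hγ, h⟩ := D.det m d hdm
  refine ⟨Sm γ, fun Y y hy hY => ?_⟩
  have hA : FS (fun v => ∑ i, D.nx v (y i)) := FS.fsum _ (fun i _ => D.nx_fs (y i))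
  have hBij : ∀ i j : Fin d, FS (fun v => if i < j then D.lam v (y i) (y j) else 0) := by
    intro i j
    by_cases hij : i < j
    · simp only [hij, if_true]
      exact D.lam_fs _ _ (fun h => hij.ne (hy h))
    · simp only [hij, if_false]
      exact FS.zero
  have hBi : ∀ i : Fin d, FS (fun v => ∑ j, (if i < j then D.lam v (y i) (y j) else 0)) :=
    fun i => FS.fsum _ (fun j _ => hBij i j)
  have hB : FS (fun v => ∑ i, ∑ j, (if i < j then D.lam v (y i) (y j) else 0)) :=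
    FS.fsum _ (fun i _ => hBi i)
  have hF : ∀ v, |D.Hl m y v - m * ∑ i, D.nx v (y i) +
      ∑ i, ∑ j, (if i < j then D.lam v (y i) (y j) else 0)| ≤ γ v := fun v => h v y hy
  have hFS : FS (fun v => D.Hl m y v - m * ∑ i, D.nx v (y i) +
      ∑ i, ∑ j, (if i < j then D.lam v (y i) (y j) else 0)) := FS.of_abs_le hγ hF
  have hHl : FS (D.Hl m y) := by
    have h1 := (hFS.add (hA.const_mul m)).sub hB
    have h2 : (fun v => (D.Hl m y v - m * ∑ i, D.nx v (y i) +
      ∑ i, ∑ j, (if i < j then D.lam v (y i) (y j) else 0)) + m * ∑ i, D.nx v (y i) -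
      ∑ i, ∑ j, (if i < j then D.lam v (y i) (y j) else 0)) = D.Hl m y := by
      funext v
      ring
    rwa [h2] at h1
  have hSm : Sm (fun v => D.Hl m y v - m * ∑ i, D.nx v (y i) +
      ∑ i, ∑ j, (if i < j then D.lam v (y i) (y j) else 0)) =
      D.HH m y - m * D.hh Y.val + D.dlp2 Y / 2 := by
    rw [Sm_add (hHl.sub (hA.const_mul m)) hB, Sm_sub hHl (hA.const_mul m), Sm_const_mul _ hA,
      Sm_fsum _ (fun i _ => D.nx_fs (y i)), Sm_fsum _ (fun i _ => hBi i), D.g3_hh Y y hy hY,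
      D.g3_dlp2 Y y hy hY]
    have h3 : ∀ i : Fin d, Sm (fun v => ∑ j, (if i < j then D.lam v (y i) (y j) else 0)) =
        ∑ j, (if i < j then D.LL (y i) (y j) else 0) := by
      intro i
      rw [Sm_fsum _ (fun j _ => hBij i j)]
      refine Finset.sum_congr rfl fun j _ => ?_
      by_cases hij : i < j
      · simp only [hij, if_true]
        rfl
      · simp only [hij, if_false]
        exact Sm_zero
    simp only [h3]
    unfold HH hx
    ring
  rw [← hSm]
  exact abs_Sm_le hγ hF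

theorem g3' (m d : ℕ) (hdm : d ≤ m) (hm : 1 ≤ m) : ∃ C : ℝ, ∀ (Y : Finset X) (y : Fin d → X),
    Function.Injective y → Finset.univ.image y = Y →
    |D.n0 * D.HH m y - D.Th Y - ((D.dW m : ℝ) - d) * D.hh Y.val| ≤ C := by
  obtain ⟨C, hC⟩ := D.g3 m d hdm
  refine ⟨D.n0 * C, fun Y y hy hY => ?_⟩
  have h1 := hC Y y hy hY
  have hcard : Y.card = d := by
    rw [← hY, Finset.card_image_of_injective _ hy, Finset.card_univ, Fintype.card_fin]
  have h2 : (D.dW m : ℝ) + D.g = m * D.n0 + 1 := by exact_mod_cast D.dW_eq m hm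
  have h3 : D.n0 * D.HH m y - D.Th Y - ((D.dW m : ℝ) - d) * D.hh Y.val =
      D.n0 * (D.HH m y - m * D.hh Y.val + D.dlp2 Y / 2) := by
    unfold Th
    rw [hcard]
    have h4 : (D.dW m : ℝ) = m * D.n0 + 1 - D.g := by linarith
    rw [h4]
    ring
  rw [h3, abs_mul, abs_of_nonneg (Nat.cast_nonneg _)]
  exact mul_le_mul_of_nonneg_left h1 (Nat.cast_nonneg _)

end HtData

end Fermat.Agent.S17.Glob
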