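/-
S17 / GLOB / MatA     key [S17/G-MATA]     (Mathlib + SL/Defs only)   Galois descent of the interpolation matrix.

`M : d × ι` matrix over `Kb` whose ROWS are permuted by `GQ`, `J0` with `mnr M J0 ≠ 0`, `P = M.submatrix id J0` (invertible).
`A₀ = P⁻¹ * M`.  For `σ` with permutation `π`: `σ(M) = M.submatrix π id = Q * M` (`Q` the permutation matrix), `σ(P) = Q * P`, so `σ(A₀) = (Q P)⁻¹ Q M = A₀`:
 all entries of `A₀` are fixed by `GQ`, hence rational (`IsGalois.mem_bot_iff_fixed`, `IntermediateField.mem_bot`): `A` with `A.map (algebraMap ℚ Kb) = A₀`.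
 [cheaper: `P * σ(A₀) = ...`; or entrywise: `M = P * A₀` ⟹ applying σ and permuting rows: `M = P * σ(A₀)` ⟹ `σ(A₀) = A₀` by invertibility of `P`.]
* `A.submatrix id J0 = 1` : `P⁻¹ * P = 1`, injectivity of `algebraMap`.
* minors: `(P⁻¹ * M).submatrix id J = P⁻¹ * M.submatrix id J`, `det_mul`, `det P⁻¹ = (det P)⁻¹`; `RingHom.map_det`.
* kernel: `A₀ x = 0 ↔ M x = 0` (`P` invertible).
* entries are minors: `J = Function.update J0 i j`; `A.submatrix id J` = identity matrix with `i`-th column replaced by the `j`-th column of `A`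
  = `(1 : Matrix).updateCol i (fun a => A a j)`; `Matrix.det_updateCol`-Cramer: `det (1.updateCol i b) = b i` (`Matrix.cramer_apply`, `Matrix.cramer_one`).
* `σ (mnr M J0) = sign π * mnr M J0` (`Matrix.det_permute`), so `= ±`.
-/
import Mathlib
import Fermat.Agent.S17.SL.Defs

set_option autoImplicit false

noncomputable section

namespace Fermat.Agent.S17.Glob

open Matrix

theorem mat_sign {d : ℕ} {ι : Type} [Fintype ι] [DecidableEq ι]
    (M : Matrix (Fin d) ι (AlgebraicClosure ℚ))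
    (hM : ∀ σ : AlgebraicClosure ℚ ≃ₐ[ℚ] AlgebraicClosure ℚ, ∃ π : Equiv.Perm (Fin d),
      ∀ i l, σ (M i l) = M (π i) l) (J0 : Fin d → ι)
    (σ : AlgebraicClosure ℚ ≃ₐ[ℚ] AlgebraicClosure ℚ) :
    σ (SL.mnr M J0) = SL.mnr M J0 ∨ σ (SL.mnr M J0) = - SL.mnr M J0 := by
  obtain ⟨π, hπ⟩ := hM σ
  have h1 : σ (SL.mnr M J0) = ((M.submatrix id J0).submatrix π id).det := by
    rw [SL.mnr]
    have := RingHom.map_det (σ : AlgebraicClosure ℚ →+* AlgebraicClosure ℚ) (M.submatrix id J0)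
    change σ (M.submatrix id J0).det = _ at this
    rw [this]
    congr 1
    ext i k
    exact hπ i (J0 k)
  rw [h1, Matrix.det_permute, ← SL.mnr]
  rcases Int.units_eq_one_or (Equiv.Perm.sign π) with h | h
  · left; rw [h]; simp
  · right; rw [h]; simp

theorem matAux_rat {x : AlgebraicClosure ℚ}
    (h : ∀ σ : AlgebraicClosure ℚ ≃ₐ[ℚ] AlgebraicClosure ℚ, σ x = x) :
    ∃ r : ℚ, algebraMap ℚ (AlgebraicClosure ℚ) r = x := by
  have h2 : Algebra.IsAlgebraic ℚ (AlgebraicClosure ℚ) := AlgebraicClosure.isAlgebraic ℚ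
  have h1 : IsAlgClosure ℚ (AlgebraicClosure ℚ) := ⟨inferInstance, h2⟩
  have h3 : Normal ℚ (AlgebraicClosure ℚ) := IsAlgClosure.normal ℚ (AlgebraicClosure ℚ)
  have : IsGalois ℚ (AlgebraicClosure ℚ) := ⟨⟩
  exact (InfiniteGalois.mem_range_algebraMap_iff_fixed x).2 h

theorem mat_descent {d : ℕ} {ι : Type} [Fintype ι] [DecidableEq ι]
    (M : Matrix (Fin d) ι (AlgebraicClosure ℚ))
    (hM : ∀ σ : AlgebraicClosure ℚ ≃ₐ[ℚ] AlgebraicClosure ℚ, ∃ π : Equiv.Perm (Fin d),
      ∀ i l, σ (M i l) = M (π i) l) (J0 : Fin d → ι) (h0 : SL.mnr M J0 ≠ 0) :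
    ∃ A : Matrix (Fin d) ι ℚ, A.submatrix id J0 = 1 ∧
      (∀ J, algebraMap ℚ (AlgebraicClosure ℚ) (SL.mnr A J) = SL.mnr M J / SL.mnr M J0) ∧
      (∀ s : ι → ℚ, A.mulVec s = 0 ↔
        M.mulVec (fun l => algebraMap ℚ (AlgebraicClosure ℚ) (s l)) = 0) ∧
      (∀ i j, A i j = SL.mnr A (Function.update J0 i j)) := by
  classical
  set P : Matrix (Fin d) (Fin d) (AlgebraicClosure ℚ) := M.submatrix id J0 with hP
  have hdet : IsUnit P.det := isUnit_iff_ne_zero.2 h0
  have hPP : P * P⁻¹ = 1 := Matrix.mul_nonsing_inv P hdet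
  have hPP' : P⁻¹ * P = 1 := Matrix.nonsing_inv_mul P hdet
  set A₀ : Matrix (Fin d) ι (AlgebraicClosure ℚ) := P⁻¹ * M with hA₀
  have hMA : M = P * A₀ := by rw [hA₀, ← Matrix.mul_assoc, hPP, Matrix.one_mul]
  -- the entries of `A₀` are fixed
  have hfix : ∀ (σ : AlgebraicClosure ℚ ≃ₐ[ℚ] AlgebraicClosure ℚ) i l, σ (A₀ i l) = A₀ i l := by
    intro σ
    obtain ⟨π, hπ⟩ := hM σ
    have h1 : M = P * A₀.map σ := by
      ext i l
      obtain ⟨i', rfl⟩ := π.surjective i
      rw [← hπ i' l]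
      conv_lhs => rw [hMA]
      rw [Matrix.mul_apply, Matrix.mul_apply, map_sum]
      refine Finset.sum_congr rfl fun k _ => ?_
      rw [map_mul]
      congr 1
      exact hπ i' (J0 k)
    have h2 : A₀ = A₀.map σ := by
      calc A₀ = P⁻¹ * (P * A₀.map σ) := by rw [← h1]
        _ = A₀.map σ := by rw [← Matrix.mul_assoc, hPP', Matrix.one_mul]
    intro i l
    exact (congrFun (congrFun h2 i) l).symm
  choose A hA using fun i l => matAux_rat (fun σ => hfix σ i l)
  have hAm : (Matrix.of A).map (algebraMap ℚ (AlgebraicClosure ℚ)) = A₀ := by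
    ext i l; exact hA i l
  have hinj : Function.Injective (algebraMap ℚ (AlgebraicClosure ℚ)) := (algebraMap ℚ _).injective
  have hsub : (Matrix.of A).submatrix id J0 = 1 := by
    apply Matrix.map_injective hinj
    show ((Matrix.of A).submatrix id J0).map (algebraMap ℚ (AlgebraicClosure ℚ)) =
      (1 : Matrix (Fin d) (Fin d) ℚ).map (algebraMap ℚ (AlgebraicClosure ℚ))
    rw [← Matrix.submatrix_map, hAm, hA₀, Matrix.map_one _ (map_zero _) (map_one _)]
    rw [← hPP', hP]
    ext i k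
    simp [Matrix.mul_apply]
  have hmnr : ∀ J, algebraMap ℚ (AlgebraicClosure ℚ) (SL.mnr (Matrix.of A) J) = SL.mnr M J / SL.mnr M J0 := by
    intro J
    rw [SL.mnr, RingHom.map_det]
    have h1 : (algebraMap ℚ (AlgebraicClosure ℚ)).mapMatrix ((Matrix.of A).submatrix id J) =
        P⁻¹ * M.submatrix id J := by
      rw [RingHom.mapMatrix_apply, ← Matrix.submatrix_map, hAm, hA₀]
      ext i k
      simp [Matrix.mul_apply]
    rw [h1, Matrix.det_mul, Matrix.det_nonsing_inv, Ring.inverse_eq_inv', SL.mnr, SL.mnr, ← hP]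
    field_simp
  refine ⟨Matrix.of A, hsub, hmnr, ?_, ?_⟩
  · intro s
    have h1 : (fun i => algebraMap ℚ (AlgebraicClosure ℚ) ((Matrix.of A).mulVec s i)) =
        A₀.mulVec (fun l => algebraMap ℚ (AlgebraicClosure ℚ) (s l)) := by
      ext i
      rw [Matrix.mulVec, dotProduct, map_sum, Matrix.mulVec, dotProduct]
      refine Finset.sum_congr rfl fun l _ => ?_
      rw [map_mul]
      congr 1
      exact hA i l
    constructor
    · intro h
      rw [h] at h1
      have h2 : A₀.mulVec (fun l => algebraMap ℚ (AlgebraicClosure ℚ) (s l)) = 0 := by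
        rw [← h1]; ext i; simp
      rw [hMA, ← Matrix.mulVec_mulVec, h2, Matrix.mulVec_zero]
    · intro h
      have h2 : A₀.mulVec (fun l => algebraMap ℚ (AlgebraicClosure ℚ) (s l)) = 0 := by
        rw [hA₀, ← Matrix.mulVec_mulVec, h, Matrix.mulVec_zero]
      rw [h2] at h1
      ext i
      apply hinj
      rw [Pi.zero_apply, map_zero]
      exact congrFun h1 i
  · intro i j
    have h1 : (Matrix.of A).submatrix id (Function.update J0 i j) =
        (1 : Matrix (Fin d) (Fin d) ℚ).updateCol i (fun a => A a j) := by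
      ext a k
      rw [Matrix.updateCol_apply, Matrix.submatrix_apply]
      by_cases hk : k = i
      · subst hk
        simp
      · rw [if_neg hk, Function.update_of_ne hk, ← hsub]
        rfl
    rw [SL.mnr, h1, ← Matrix.cramer_apply, Matrix.cramer_one]
    rfl

end Fermat.Agent.S17.Glob
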