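/-
S17 / GLOB / MatB     key [S17/G-MATB]     (imports MatA, Sum, SL/Padic, SL/Idx)      H(Y) = log (dn A).
-/
import Fermat.Agent.S17.Glob.MatA
import Fermat.Agent.S17.Glob.Sum
import Fermat.Agent.S17.SL.Padic
import Fermat.Agent.S17.SL.Idx

set_option autoImplicit false

noncomputable section

namespace Fermat.Agent.S17.Glob

variable {𝒜 : AVFam} {X : Type} [MulAction GQ X] {J : Type} [AddCommGroup J] {Γ : AddSubgroup J}

/-- the height of the vector of the maximal minors of a rational matrix `A` with `A_{J0} = 1`, all of whose minors are `≤ 1` -/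
theorem Sm_log_minors (𝒜 : AVFam) {d n : ℕ} (A : Matrix (Fin d) (Fin n) ℚ) (J0 : Fin d → Fin n)
    (hA1 : A.submatrix id J0 = 1) (hle : ∀ Jc, |SL.mnr A Jc| ≤ 1) :
    FS (fun v => Real.log (⨆ Jc : Fin d → Fin n, 𝒜.av v (algebraMap ℚ Kb (SL.mnr A Jc)))) ∧
    Sm (fun v => Real.log (⨆ Jc : Fin d → Fin n, 𝒜.av v (algebraMap ℚ Kb (SL.mnr A Jc))))
      = Real.log (SL.dn A) := by
  classical
  set T : Pl → ℝ := fun v => Real.log (⨆ Jc : Fin d → Fin n, 𝒜.av v (algebraMap ℚ Kb (SL.mnr A Jc)))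
    with hT
  have hJ0 : SL.mnr A J0 = 1 := by
    unfold SL.mnr
    rw [hA1, Matrix.det_one]
  have hbd : ∀ v, BddAbove (Set.range fun Jc : Fin d → Fin n =>
      𝒜.av v (algebraMap ℚ Kb (SL.mnr A Jc))) := fun v => (Set.finite_range _).bddAbove
  have hnone : T none = 0 := by
    have : (⨆ Jc : Fin d → Fin n, 𝒜.av none (algebraMap ℚ Kb (SL.mnr A Jc))) = 1 := by
      apply le_antisymm
      · apply Real.iSup_le _ zero_le_one
        intro Jc
        rw [𝒜.arch]
        exact_mod_cast hle Jc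
      · have h1 := le_ciSup (hbd none) J0
        simpa [hJ0] using h1
    show Real.log _ = 0
    rw [this, Real.log_one]
  have hsome : ∀ p : Nat.Primes, T (some p) = (padicValNat (p : ℕ) (SL.dn A) : ℝ) * Real.log (p : ℕ) := by
    intro p
    have : Fact (p : ℕ).Prime := ⟨p.2⟩
    have : (⨆ Jc : Fin d → Fin n, 𝒜.av (some p) (algebraMap ℚ Kb (SL.mnr A Jc)))
        = ((p : ℕ) : ℝ) ^ (padicValNat (p : ℕ) (SL.dn A)) := by
      apply le_antisymm
      · apply Real.iSup_le _ (by positivity)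
        intro Jc
        rw [𝒜.padic]
        exact_mod_cast SL.padic_le A (p : ℕ) Jc
      · obtain ⟨Jc, hJc⟩ := SL.padic_exists A J0 hA1 (p : ℕ)
        have h1 := le_ciSup (hbd (some p)) Jc
        simp only [𝒜.padic] at h1
        rw [hJc] at h1
        simp only [𝒜.padic]
        exact_mod_cast h1
    show Real.log _ = _
    rw [this, Real.log_pow]
  have hFS : FS T := by
    have h1 := (fin_primes_log_nat (SL.dn_ne_zero' A)).image (some : Nat.Primes → Pl)
    refine h1.subset ?_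
    intro v hv
    cases v with
    | none => exact absurd hnone hv
    | some p =>
      refine ⟨p, ?_, rfl⟩
      have hv' : T (some p) ≠ 0 := hv
      rw [hsome p] at hv'
      exact hv'
  refine ⟨hFS, ?_⟩
  rw [Sm_eq_add hFS, hnone, zero_add, finsum_congr hsome, sum_primes_log_nat (SL.dn_ne_zero' A)]

namespace HtData

variable (D : HtData 𝒜 X Γ)

theorem exists_rat_matrix (m : ℕ) {d : ℕ} (hdm : d ≤ m) (y : Fin d → X) (hy : Function.Injective y)
    (hst : ∀ σ : GQ, ∃ π : Equiv.Perm (Fin d), ∀ i, σ • y i = y (π i)) :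
    ∃ (A : Matrix (Fin d) (Fin (D.dW m)) ℚ) (J0 : Fin d → Fin (D.dW m)), A.submatrix id J0 = 1 ∧
      (∀ i j, |A i j| ≤ 1) ∧ (∀ s : D.Sec m, A.mulVec s = 0 ↔ ∀ i, D.val m s (y i) = 0) ∧
      D.HH m y = Real.log (SL.dn A) := by
  classical
  set M : Matrix (Fin d) (Fin (D.dW m)) Kb := D.mat m y with hMdef
  have hM : ∀ σ : GQ, ∃ π : Equiv.Perm (Fin d), ∀ i l, σ (M i l) = M (π i) l := by
    intro σ
    obtain ⟨π, hπ⟩ := hst σ
    refine ⟨π, fun i l => ?_⟩
    show σ (D.ev m l (y i)) = D.ev m l (y (π i))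
    rw [D.ev_smul, hπ]
  obtain ⟨Jc, hJc⟩ := D.det_ne m d hdm y hy
  have hJc' : SL.mnr M Jc ≠ 0 := hJc
  have : Nonempty (Fin d → Fin (D.dW m)) := ⟨Jc⟩
  obtain ⟨J0, hJ0⟩ := Finite.exists_max (fun Jc : Fin d → Fin (D.dW m) => 𝒜.av none (SL.mnr M Jc))
  have h0 : SL.mnr M J0 ≠ 0 := by
    intro h
    have h1 := hJ0 Jc
    rw [h, map_zero] at h1
    exact hJc' ((𝒜.av none).eq_zero.mp (le_antisymm h1 ((𝒜.av none).nonneg _)))
  obtain ⟨A, hA1, hA2, hA3, hA4⟩ := mat_descent M hM J0 h0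
  have hav : ∀ v Jc, 𝒜.av v (SL.mnr M Jc)
      = 𝒜.av v (SL.mnr M J0) * 𝒜.av v (algebraMap ℚ Kb (SL.mnr A Jc)) := by
    intro v Jc
    rw [hA2, ← map_mul, mul_div_cancel₀ _ h0]
  have hle : ∀ Jc, |SL.mnr A Jc| ≤ 1 := by
    intro Jc
    have h1 := hav none Jc
    rw [𝒜.arch] at h1
    have h2 := hJ0 Jc
    have h3 : 0 < 𝒜.av none (SL.mnr M J0) := (𝒜.av none).pos h0
    have : |((SL.mnr A Jc : ℚ) : ℝ)| ≤ 1 := by
      by_contra hc
      push Not at hc
      nlinarith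
    exact_mod_cast this
  refine ⟨A, J0, hA1, fun i j => by rw [hA4]; exact hle _, ?_, ?_⟩
  · intro s
    rw [hA3]
    have hrow : ∀ i, (M.mulVec (fun l => algebraMap ℚ Kb (s l))) i = D.val m s (y i) := by
      intro i
      unfold val
      rw [Matrix.mulVec, dotProduct]
      apply Finset.sum_congr rfl
      intro l _
      rw [mul_comm]
      rfl
    constructor
    · intro h i
      rw [← hrow i, h]; rfl
    · intro h
      funext i
      rw [hrow i, h i]; rfl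
  · obtain ⟨hFS, hSm⟩ := Sm_log_minors 𝒜 A J0 hA1 hle
    have hJ01 : SL.mnr A J0 = 1 := by
      unfold SL.mnr
      rw [hA1, Matrix.det_one]
    have hHl : ∀ v, D.Hl m y v = Real.log (𝒜.av v (SL.mnr M J0))
        + Real.log (⨆ Jc : Fin d → Fin (D.dW m), 𝒜.av v (algebraMap ℚ Kb (SL.mnr A Jc))) := by
      intro v
      unfold Hl
      have h1 : (⨆ Jc : Fin d → Fin (D.dW m), 𝒜.av v (SL.mnr (D.mat m y) Jc))
          = 𝒜.av v (SL.mnr M J0)
            * ⨆ Jc : Fin d → Fin (D.dW m), 𝒜.av v (algebraMap ℚ Kb (SL.mnr A Jc)) := by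
        rw [Real.mul_iSup_of_nonneg ((𝒜.av v).nonneg _)]
        congr 1
        funext Jc
        exact hav v Jc
      rw [h1, Real.log_mul ((𝒜.av v).pos h0).ne']
      have h2 := le_ciSup (f := fun Jc : Fin d → Fin (D.dW m) =>
        𝒜.av v (algebraMap ℚ Kb (SL.mnr A Jc))) (Set.finite_range _).bddAbove J0
      have h3 : (1 : ℝ) ≤ ⨆ Jc : Fin d → Fin (D.dW m), 𝒜.av v (algebraMap ℚ Kb (SL.mnr A Jc)) := by
        simpa [hJ01] using h2
      linarith
    unfold HH
    rw [Sm_congr hHl, Sm_add (FS_log_av 𝒜 h0) hFS, hSm, Sm_log_sq 𝒜 h0 (mat_sign M hM J0), zero_add]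

end HtData

end Fermat.Agent.S17.Glob
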