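/-
S17 / GLOB / G4     key [S17/G-G4]     (imports G2, G3, MatB, SL/Small)

(G4)  Siegel: a small section through `Y`.
PROOF.  `y` enumeration of `Y` (`exists_enum`, cast `Y.card = d`), `hst` from `Stab.perm`; `A, J0` from `exists_rat_matrix`.
 `N = dW m`, `e = N - d`;  `e > 0`: `N + g = m n0 + 1`, `g < n0`, `d ≤ m`, `1 ≤ m` ⟹ `N - d ≥ (m-1)(n0-1) + 1`  (nlinarith / induction; do it in ℕ or ℤ).
 `SL.small A J0 _ _ e _ _` : `x ≠ 0`, `A x = 0`, `Bd ^ e ≤ dn A`, `|x j| ≤ N * Bd`.  `Bd ≥ 1` (else `x = 0`).   `s = SL.cst x ≠ 0`.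
 * `val m s (y i) = 0` ⟹ `y i ∈ Z m s` (`val_eq_zero_iff`) ⟹ `Y.val ≤ Z m s` (`Multiset.le_iff_subset Y.nodup`).
 * `hs s ≤ log (N Bd)` (`hs_int_le`), `e log Bd ≤ log (dn A) = HH m y`.  So `e hs s ≤ e log N + HH m y`.
 * g2 (C2): `hh (Z s) ≤ n0 hs s + C2`;  `hh (Z s) = hh Y + hh (Z s - Y)` (`hh_add`, `Multiset.add_sub_cancel`/`tsub_add_cancel_of_le`).
 * g3' (C3): `n0 HH ≤ Th Y + e hh Y + C3`.
 ⟹ `e (hh Y + hh (Z s - Y)) ≤ e n0 hs s + e C2 ≤ n0 e log N + n0 HH + e C2 ≤ n0 e log N + Th Y + e hh Y + C3 + e C2`.   C := n0 e log N + C3 + e C2.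
th_ge: `hh ≥ 0`, `e ≥ 0`.
-/
import Fermat.Agent.S17.Glob.G2
import Fermat.Agent.S17.Glob.G3
import Fermat.Agent.S17.Glob.MatB
import Fermat.Agent.S17.SL.Small

set_option autoImplicit false

noncomputable section

namespace Fermat.Agent.S17.Glob

variable {𝒜 : AVFam} {X : Type} [MulAction GQ X] [DecidableEq X] {J : Type} [AddCommGroup J]
  {Γ : AddSubgroup J}

namespace HtData

variable (D : HtData 𝒜 X Γ)

omit [DecidableEq X] in
theorem dW_gt (m d : ℕ) (hdm : d ≤ m) (hm : 1 ≤ m) : d < D.dW m := by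
  have h := D.dW_eq m hm
  have hg := D.hg
  obtain ⟨k, rfl⟩ : ∃ k, m = k + 1 := ⟨m - 1, by omega⟩
  have h1 : k ≤ k * D.n0 := Nat.le_mul_of_pos_right k (by omega)
  have h2 : (k + 1) * D.n0 = k * D.n0 + D.n0 := by ring
  omega

theorem g4 (m d : ℕ) (hdm : d ≤ m) (hm : 1 ≤ m) : ∃ C : ℝ, ∀ Y : Finset X, Stab Y.val → Y.card = d →
    ∃ s : D.Sec m, s ≠ 0 ∧ Y.val ≤ D.Z m s ∧
      ((D.dW m : ℝ) - d) * D.hh (D.Z m s - Y.val) ≤ D.Th Y + C := by
  obtain ⟨C2, hC2⟩ := D.g2 m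
  obtain ⟨C3, hC3⟩ := D.g3' m d hdm hm
  have hlt := D.dW_gt m d hdm hm
  refine ⟨D.n0 * (((D.dW m : ℝ) - d) * Real.log (D.dW m)) + C3 + ((D.dW m : ℝ) - d) * C2,
    fun Y hst hcard => ?_⟩
  subst hcard
  obtain ⟨y, hy, hY⟩ := exists_enum Y
  obtain ⟨A, J0, h1, hent, hker, hHH⟩ := D.exists_rat_matrix m hdm y hy (fun σ => hst.perm hy hY σ)
  obtain ⟨x, Bd, hx0, hAx, hB, hxj⟩ := SL.small A J0 h1 hent (D.dW m - Y.card) (by omega)
    (by rw [Fintype.card_fin]; omega)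
  rw [Fintype.card_fin] at hxj
  have hs0 : SL.cst x ≠ 0 := by
    intro h0
    apply hx0
    funext j
    have := congrFun h0 j
    simpa [SL.cst] using this
  have hval := (hker (SL.cst x)).1 hAx
  have hle : Y.val ≤ D.Z m (SL.cst x) := by
    rw [Multiset.le_iff_subset Y.nodup]
    intro a ha
    have ha' : a ∈ Y := ha
    rw [← hY] at ha'
    obtain ⟨i, -, rfl⟩ := Finset.mem_image.1 ha'
    exact (D.mem_Z m _ _ hs0).2 (hval i)
  refine ⟨SL.cst x, hs0, hle, ?_⟩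
  have hBd : 1 ≤ Bd := by
    by_contra hlt0
    have hB0 : Bd = 0 := by omega
    apply hx0
    funext j
    have := hxj j
    rw [hB0] at this
    simpa using this
  have hN1 : 1 ≤ D.dW m := by omega
  have hhs : hs 𝒜 (SL.cst x) ≤ Real.log ((D.dW m : ℝ) * Bd) := by
    apply hs_int_le 𝒜 hx0
    intro j
    have := hxj j
    have h2 : ((|x j| : ℤ) : ℝ) ≤ ((D.dW m * Bd : ℕ) : ℝ) := by exact_mod_cast this
    push_cast at h2
    exact h2
  have hNpos : (0 : ℝ) < D.dW m := by exact_mod_cast hN1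
  have hBpos : (0 : ℝ) < Bd := by exact_mod_cast hBd
  rw [Real.log_mul hNpos.ne' hBpos.ne'] at hhs
  have he : ((D.dW m - Y.card : ℕ) : ℝ) = (D.dW m : ℝ) - Y.card := by
    rw [Nat.cast_sub hlt.le]
  have hlogB : ((D.dW m : ℝ) - Y.card) * Real.log Bd ≤ D.HH m y := by
    rw [hHH, ← he, ← Real.log_pow]
    apply Real.log_le_log (pow_pos hBpos _)
    exact_mod_cast hB
  have hepos : (0 : ℝ) ≤ (D.dW m : ℝ) - Y.card := by
    rw [← he]
    exact Nat.cast_nonneg _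
  have h2 := (abs_le.1 (hC2 (SL.cst x) hs0)).1
  have h3 := (abs_le.1 (hC3 Y y hy hY)).2
  have hsplit : D.hh (D.Z m (SL.cst x)) = D.hh Y.val + D.hh (D.Z m (SL.cst x) - Y.val) := by
    rw [← D.hh_add, add_tsub_cancel_of_le hle]
  set E : ℝ := (D.dW m : ℝ) - Y.card with hE
  have hn0 : (0 : ℝ) ≤ D.n0 := Nat.cast_nonneg _
  have k1 : E * D.hh (D.Z m (SL.cst x)) ≤ E * (D.n0 * hs 𝒜 (SL.cst x) + C2) :=
    mul_le_mul_of_nonneg_left (by linarith) hepos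
  have k2 : E * hs 𝒜 (SL.cst x) ≤ E * Real.log (D.dW m) + D.HH m y := by
    have := mul_le_mul_of_nonneg_left hhs hepos
    nlinarith
  have k3 : D.n0 * (E * hs 𝒜 (SL.cst x)) ≤ D.n0 * (E * Real.log (D.dW m) + D.HH m y) :=
    mul_le_mul_of_nonneg_left k2 hn0
  rw [hsplit] at k1
  nlinarith

theorem th_ge (d : ℕ) : ∃ C : ℝ, ∀ Y : Finset X, Stab Y.val → Y.card = d → - C ≤ D.Th Y := by
  obtain ⟨C, hC⟩ := D.g4 (max d 1) d (le_max_left _ _) (le_max_right _ _)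
  refine ⟨C, fun Y hst hcard => ?_⟩
  obtain ⟨s, -, -, h⟩ := hC Y hst hcard
  have hlt := D.dW_gt (max d 1) d (le_max_left _ _) (le_max_right _ _)
  have h1 : (0 : ℝ) ≤ (D.dW (max d 1) : ℝ) - d := by
    have : (d : ℝ) ≤ D.dW (max d 1) := by exact_mod_cast hlt.le
    linarith
  have h2 : 0 ≤ D.hh (D.Z (max d 1) s - Y.val) := D.hh_nonneg _
  have := mul_nonneg h1 h2
  linarith

end HtData

end Fermat.Agent.S17.Glob
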