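/-
S17 / GLOB / G5     key [S17/G-G5]     (imports G2, G3, MatB, SL/Conv)

(G5)  Th(T) ≤ C  for the (reduced) zero divisor `T` of a section `s' ∈ Sec m1`.
PROOF.  d = m1 n0 = card T, m2 := m1 n0 + 1, m := m1 + m2 (so d ≤ m, 1 ≤ m2).  `T = (Z m1 s').toFinset`, `T.val = Z m1 s'` (`Multiset.toFinset_val`, `Multiset.dedup_eq_self`), stable.
 `y` enumeration, `A, J0` from `exists_rat_matrix` (level m).  e := dW m2;  `dW m = d + e` from `dW_eq` (twice).
 u i := D.mul m1 m2 s' (Pi.single i 1) ≠ 0 (`mul_ne`);  `Z m (u i) = Z s' + Z (single i)` ⟹ `y k ∈ Z m (u i)` ⟹ `val m (u i) (y k) = 0` ⟹ `A.mulVec (u i) = 0`.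
 `exists_prim (u i)` : `x i : Fin (dW m) → ℤ`, `cst (x i) = c i • u i`, `c i ≠ 0`, `|x i j| ≤ exp (hs (u i))`.   `A.mulVec (cst (x i)) = 0`.
 INDEPENDENCE over ℤ: `u` is ℚ-independent (`D.mul m1 m2 s'` is an injective linear map: kernel trivial by `mul_ne`; image of the standard basis `Pi.basisFun`),
   scaling by `c i ≠ 0` keeps independence (`LinearIndependent.units_smul`), restrict scalars to ℤ and pull back along the injective `cst`.
 BOUND: `γ` from `D.mult m1 m2`: `hs (u i) ≤ hs s' + hs (single i) + Sm γ` (`Sm_le`, `FS_ns`).  Cw := ∑_i |hs (single i)| + Sm γ.  R := ⌊exp (hs s' + Cw)⌋₊, `|x i j| ≤ R` (`Nat.le_floor`, integers), `R ≥ 1`.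
 `SL.conv` : `dn A ≤ e! R^e` ⟹ `HH m y = log (dn A) ≤ log e! + e (hs s' + Cw)`.
 g3' (C3): `Th T ≤ n0 HH - e hh T + C3`;   g2 (C2, level m1): `n0 hs s' ≤ hh (Z s') + C2 = hh T.val + C2`.
 ⟹ `Th T ≤ n0 log e! + e (n0 hs s' - hh T) + n0 e Cw + C3 ≤ n0 log e! + e C2 + n0 e Cw + C3`.
-/
import Fermat.Agent.S17.Glob.G2
import Fermat.Agent.S17.Glob.G3
import Fermat.Agent.S17.Glob.MatB
import Fermat.Agent.S17.SL.Conv
import Fermat.Agent.S17.Glob.G4
import Fermat.Agent.S17.Glob.NS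

set_option autoImplicit false

noncomputable section

namespace Fermat.Agent.S17.Glob

variable {𝒜 : AVFam} {X : Type} [MulAction GQ X] [DecidableEq X] {J : Type} [AddCommGroup J]
  {Γ : AddSubgroup J}

namespace HtData

variable (D : HtData 𝒜 X Γ)

omit [MulAction GQ X] in
theorem g5_enum (Y : Finset X) (d : ℕ) (h : Y.card = d) :
    ∃ y : Fin d → X, Function.Injective y ∧ Finset.univ.image y = Y := by
  subst h
  exact exists_enum Y

theorem g5 (m1 : ℕ) (hm1 : 1 ≤ m1) : ∃ C : ℝ, ∀ s' : D.Sec m1, s' ≠ 0 → (D.Z m1 s').Nodup →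
    D.Th (D.Z m1 s').toFinset ≤ C := by
  set d : ℕ := m1 * D.n0 with hd
  set m2 : ℕ := m1 * D.n0 + 1 with hm2
  have hdm : d ≤ m1 + m2 := by omega
  have hm : 1 ≤ m1 + m2 := by omega
  have h1m2 : 1 ≤ m2 := by omega
  set e : ℕ := D.dW m2 with he
  have hdW : D.dW (m1 + m2) = d + e := by
    have h1 := D.dW_eq (m1 + m2) hm
    have h2 := D.dW_eq m2 h1m2
    have h3 : (m1 + m2) * D.n0 = m1 * D.n0 + m2 * D.n0 := by ring
    omega
  obtain ⟨C2, hC2⟩ := D.g2 m1
  obtain ⟨C3, hC3⟩ := D.g3' (m1 + m2) d hdm hm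
  obtain ⟨γ, hγ, hmult⟩ := D.mult m1 m2
  set Cw : ℝ := ∑ i : Fin e, |hs 𝒜 (Pi.single i 1 : D.Sec m2)| + Sm γ with hCw
  refine ⟨D.n0 * Real.log (e.factorial) + e * C2 + D.n0 * (e * Cw) + C3, fun s' hs' hnd => ?_⟩
  set T : Finset X := (D.Z m1 s').toFinset with hT
  have hTval : T.val = D.Z m1 s' := by
    rw [hT, Multiset.toFinset_val, Multiset.dedup_eq_self.2 hnd]
  have hTcard : T.card = d := by
    show Multiset.card T.val = d
    rw [hTval, D.Z_card m1 s' hs']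
  have hTst : Stab T.val := by
    rw [hTval]
    exact D.Z_stab m1 s' hs'
  obtain ⟨y, hy, hY⟩ := g5_enum T d hTcard
  obtain ⟨A, J0, h1, hent, hker, hHH⟩ :=
    D.exists_rat_matrix (m1 + m2) hdm y hy (fun σ => hTst.perm hy hY σ)
  have hsing : ∀ i : Fin e, (Pi.single i 1 : D.Sec m2) ≠ 0 := by
    intro i h0
    have := congrFun h0 i
    simp at this
  let u : Fin e → D.Sec (m1 + m2) := fun i => D.mul m1 m2 s' (Pi.single i 1)
  have hu0 : ∀ i, u i ≠ 0 := fun i => D.mul_ne m1 m2 s' _ hs' (hsing i)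
  have hAu : ∀ i, A.mulVec (u i) = 0 := by
    intro i
    rw [hker]
    intro k
    have h2 : y k ∈ T := by
      rw [← hY]
      exact Finset.mem_image_of_mem y (Finset.mem_univ k)
    have h3 : y k ∈ D.Z m1 s' := by
      rw [← hTval]
      exact h2
    have h4 : y k ∈ D.Z (m1 + m2) (u i) := by
      rw [D.Z_mul m1 m2 s' _ hs' (hsing i)]
      exact Multiset.mem_add.2 (Or.inl h3)
    exact (D.mem_Z (m1 + m2) (u i) (y k) (hu0 i)).1 h4
  have hprim := fun i => exists_prim 𝒜 (hu0 i)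
  choose x c hc hxc hxb using hprim
  have hAx : ∀ i, A.mulVec (SL.cst (x i)) = 0 := by
    intro i
    rw [hxc, Matrix.mulVec_smul, hAu, smul_zero]
  have hind : LinearIndependent ℤ x := by
    rw [Fintype.linearIndependent_iff]
    intro a ha i
    have h2 : ∑ i, ((a i : ℚ) * c i) • u i = 0 := by
      have h3 : ∀ i, ((a i : ℚ) * c i) • u i = (a i : ℚ) • SL.cst (x i) := by
        intro i
        rw [hxc, smul_smul]
      simp only [h3]
      funext j
      have h4 := congrFun ha j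
      have h5 := congrArg (fun z : ℤ => (z : ℚ)) h4
      simp only [Finset.sum_apply, Pi.smul_apply, smul_eq_mul, Pi.zero_apply] at h5 ⊢
      push_cast at h5
      exact h5
    have h6 : D.mul m1 m2 s' (∑ i, ((a i : ℚ) * c i) • (Pi.single i 1 : D.Sec m2)) = 0 := by
      rw [map_sum]
      simp only [map_smul]
      exact h2
    have h7 : (∑ i, ((a i : ℚ) * c i) • (Pi.single i 1 : D.Sec m2)) = 0 := by
      by_contra hne
      exact D.mul_ne m1 m2 s' _ hs' hne h6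
    have h8 := congrFun h7 i
    simp only [Finset.sum_apply, Pi.smul_apply, smul_eq_mul, Pi.zero_apply, Pi.single_apply] at h8
    simp only [mul_ite, mul_one, mul_zero, Finset.sum_ite_eq, Finset.mem_univ, if_true] at h8
    rcases mul_eq_zero.1 h8 with h9 | h9
    · exact_mod_cast h9
    · exact (hc i h9).elim
  have hhu : ∀ i, hs 𝒜 (u i) ≤ hs 𝒜 s' + Cw := by
    intro i
    have h2 : hs 𝒜 (u i) ≤ hs 𝒜 s' + hs 𝒜 (Pi.single i 1 : D.Sec m2) + Sm γ := by
      unfold hs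
      rw [← Sm_add (FS_ns 𝒜 hs') (FS_ns 𝒜 (hsing i)), ← Sm_add ((FS_ns 𝒜 hs').add (FS_ns 𝒜 (hsing i))) hγ]
      exact Sm_le (FS_ns 𝒜 (hu0 i)) (((FS_ns 𝒜 hs').add (FS_ns 𝒜 (hsing i))).add hγ)
        (fun v => hmult v s' _ hs' (hsing i))
    have h3 : hs 𝒜 (Pi.single i 1 : D.Sec m2) ≤ ∑ i : Fin e, |hs 𝒜 (Pi.single i 1 : D.Sec m2)| :=
      (le_abs_self _).trans (Finset.single_le_sum
        (f := fun i : Fin e => |hs 𝒜 (Pi.single i 1 : D.Sec m2)|) (fun j _ => abs_nonneg _)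
        (Finset.mem_univ i))
    rw [hCw]
    linarith
  set R : ℕ := ⌊Real.exp (hs 𝒜 s' + Cw)⌋₊ with hR
  have hxR : ∀ i j, |x i j| ≤ (R : ℤ) := by
    intro i j
    have h2 : |(x i j : ℝ)| ≤ Real.exp (hs 𝒜 s' + Cw) :=
      (hxb i j).trans (Real.exp_le_exp.2 (hhu i))
    have h3 : (x i j).natAbs ≤ R := by
      apply Nat.le_floor
      rw [Nat.cast_natAbs]
      push_cast
      exact h2
    rw [Int.abs_eq_natAbs]
    exact_mod_cast h3
  have hconv := SL.conv A J0 h1 e (by rw [Fintype.card_fin, hdW]) x hAx hind R hxR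
  have hdn : 0 < SL.dn A := SL.dn_pos A
  have hepos : 0 < e := D.dW_gt m2 0 (Nat.zero_le _) h1m2
  have hR1 : 1 ≤ R := by
    by_contra hlt
    have hR0 : R = 0 := by omega
    rw [hR0, zero_pow hepos.ne', mul_zero] at hconv
    omega
  have hRpos : (0 : ℝ) < R := by exact_mod_cast hR1
  have hlogR : Real.log R ≤ hs 𝒜 s' + Cw := by
    rw [Real.log_le_iff_le_exp hRpos]
    exact Nat.floor_le (Real.exp_pos _).le
  have hfpos : (0 : ℝ) < (e.factorial : ℝ) := by exact_mod_cast e.factorial_pos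
  have hHHle : D.HH (m1 + m2) y ≤ Real.log (e.factorial) + e * (hs 𝒜 s' + Cw) := by
    rw [hHH]
    have h2 : Real.log (SL.dn A) ≤ Real.log ((e.factorial : ℝ) * (R : ℝ) ^ e) := by
      apply Real.log_le_log (by exact_mod_cast hdn)
      exact_mod_cast hconv
    rw [Real.log_mul hfpos.ne' (pow_pos hRpos e).ne', Real.log_pow] at h2
    have h3 : (e : ℝ) * Real.log R ≤ e * (hs 𝒜 s' + Cw) :=
      mul_le_mul_of_nonneg_left hlogR (Nat.cast_nonneg _)
    linarith
  have k3 := (abs_le.1 (hC3 T y hy hY)).1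
  have k2 := (abs_le.1 (hC2 s' hs')).2
  rw [← hTval] at k2
  have hcast : (D.dW (m1 + m2) : ℝ) - d = e := by
    rw [hdW]
    push_cast
    ring
  rw [hcast] at k3
  have hn0 : (0 : ℝ) ≤ D.n0 := Nat.cast_nonneg _
  have he0 : (0 : ℝ) ≤ e := Nat.cast_nonneg _
  have k4 := mul_le_mul_of_nonneg_left hHHle hn0
  have k5 := mul_le_mul_of_nonneg_left k2 he0
  nlinarith

end HtData

end Fermat.Agent.S17.Glob
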