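/-
S17 / GLOB / G6     key [S17/G-G6]     (imports Sum)        Northcott for rational effective divisors.

STEP 1 (`finite_rat`): for `B : ℝ` the set `{c : ℚ | Sm (fun v => log (max 1 (av v c))) ≤ B}` is finite.
   [`c = a / b` in lowest terms: `∑_p log max(1,|c|_p) = log b`, `log max(1,|c|) ≥ log (|a| / b)`, so `b ≤ e^B`, `|a| ≤ e^B`. It is enough to prove `c.den ≤ e^B` and `|c.num| ≤ e^B`,
    then `Set.Finite.subset` of the image of a finite box.  Cheap way for the denominator: `Sm (log max(1, v c)) ≥ ∑_{p ∣ den} log |c|_p = log den`;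
    for the numerator apply the product formula: `Sm (log max(1, v c)) = Sm (log max(1, v c⁻¹))` for `c ≠ 0` (since `max(1,t) = t max(1,1/t)` and `Sm_log_rat`), and `c⁻¹` has denominator `|num|`.]
STEP 2: `Y` stable, `card Y ≤ n`, `hh Y ≤ B`, `j : Fin r`.  `P_j = ∏_{z ∈ Y} (X - C (co z j)) ∈ Kb[X]` is fixed by `GQ` (`co_smul`, `Stab`), so `P_j = Q_j.map (algebraMap ℚ Kb)`, `Q_j` monic of degree `card Y`.
   Every coefficient `c` of `P_j` is `±` an elementary symmetric function of the `co z j` (`Multiset.prod_X_sub_C_coeff`/`Multiset.esymm`): a sum of `≤ 2^n` products of sub-multisets, so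
   `av v c ≤ τ_v ∏_{z∈Y} max(1, av v (co z j)) ≤ τ_v exp (∑_{z∈Y} nx v z)`, `τ_v = 2^n` for `v = none`, `1` for `v = some p` (ultrametric: `𝒜.na`).
   Hence `Sm (log max(1, av v c)) ≤ n log 2 + hh Y ≤ n log 2 + B`.   [simplest proof of the local bound: induction on the multiset `Y` for the statement
   `∀ k, av v (coeff k (∏ (X - C a_i))) ≤ τ^(card) ∏ max(1, av v a_i)` with `τ = 2` resp. `1`, using `coeff_mul_X_sub_C`.]
STEP 3: the set `𝒬` of monic `Q ∈ ℚ[X]` of degree `≤ n` with all coefficients in the finite set of STEP 1 is finite; `R = ⋃_{Q ∈ 𝒬} roots` is a finite subset of `Kb`;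
   every `z ∈ Y` has `co z j ∈ R` for all `j`; `X0 = {z | ∀ j, co z j ∈ R}` is finite (`co_inj`, `Set.Finite.pi`, `Set.Finite.preimage`);
   multisets of cardinality `≤ n` with all elements in the finite set `X0` form a finite set (`Multiset.powersetCard`/ `Finset.sym`, or: image of `List`s `Vector`s: `List.finite_length_le`-type lemma; or `Multiset` ≤ `n • X0.val`: `Multiset.finite_Iic`/`Set.finite_Iic`).
-/
import Fermat.Agent.S17.Glob.Sum
import Fermat.Agent.S17.SL.Padic

set_option autoImplicit false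

noncomputable section

namespace Fermat.Agent.S17.Glob

variable {𝒜 : AVFam} {X : Type} [MulAction GQ X] {J : Type} [AddCommGroup J] {Γ : AddSubgroup J}

/-- the local term of the affine height -/
def g6h (𝒜 : AVFam) (a : Kb) (v : Pl) : ℝ := Real.log (max 1 (𝒜.av v a))

theorem g6h_nonneg (𝒜 : AVFam) (a : Kb) (v : Pl) : 0 ≤ g6h 𝒜 a v :=
  Real.log_nonneg (le_max_left _ _)

theorem g6h_fs (𝒜 : AVFam) (a : Kb) : FS (g6h 𝒜 a) := by
  by_cases ha : a = 0
  · have : g6h 𝒜 a = fun _ => (0 : ℝ) := by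
      funext v
      unfold g6h
      rw [ha, map_zero, max_eq_left zero_le_one, Real.log_one]
    rw [this]
    exact FS.zero
  · refine Set.Finite.subset (𝒜.fin a ha) ?_
    intro v hv
    simp only [Function.mem_support, Set.mem_ofPred_eq] at *
    intro h
    apply hv
    unfold g6h
    rw [h, max_self, Real.log_one]

theorem g6_log_den_le (𝒜 : AVFam) (c : ℚ) :
    Real.log c.den ≤ ∑ᶠ p : Nat.Primes, g6h 𝒜 (algebraMap ℚ Kb c) (some p) := by
  rw [← sum_primes_log_nat c.den_ne_zero]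
  have hfin : (Function.support fun p : Nat.Primes => g6h 𝒜 (algebraMap ℚ Kb c) (some p)).Finite := by
    have h1 := g6h_fs 𝒜 (algebraMap ℚ Kb c)
    exact Set.Finite.preimage (Option.some_injective _).injOn h1
  apply finsum_le_finsum' (fin_primes_log_nat c.den_ne_zero) hfin
  intro p
  have : Fact (p : ℕ).Prime := ⟨p.2⟩
  show (padicValNat (p : ℕ) c.den : ℝ) * Real.log ((p : ℕ) : ℝ) ≤
    Real.log (max 1 (𝒜.av (some p) (algebraMap ℚ Kb c)))
  rw [𝒜.padic]
  by_cases h0 : padicValNat (p : ℕ) c.den = 0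
  · rw [h0]
    simp only [Nat.cast_zero, zero_mul]
    exact Real.log_nonneg (le_max_left _ _)
  · rw [SL.padicNorm_eq_den (p : ℕ) c h0]
    push_cast
    have hp1 : (1 : ℝ) ≤ ((p : ℕ) : ℝ) ^ padicValNat (p : ℕ) c.den :=
      one_le_pow₀ (by exact_mod_cast p.2.one_lt.le)
    rw [max_eq_right hp1, Real.log_pow]

theorem g6_bounds (𝒜 : AVFam) (c : ℚ) :
    Real.log c.den ≤ Sm (g6h 𝒜 (algebraMap ℚ Kb c)) ∧
      (c ≠ 0 → Real.log (c.num.natAbs : ℝ) ≤ Sm (g6h 𝒜 (algebraMap ℚ Kb c))) := by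
  have h1 := g6_log_den_le 𝒜 c
  rw [Sm_eq_add (g6h_fs 𝒜 _)]
  constructor
  · have := g6h_nonneg 𝒜 (algebraMap ℚ Kb c) none
    linarith
  · intro hc
    have hnum : (0 : ℝ) < (c.num.natAbs : ℝ) := by
      have : c.num.natAbs ≠ 0 := by
        rw [Int.natAbs_ne_zero]
        exact Rat.num_ne_zero.2 hc
      exact_mod_cast Nat.pos_of_ne_zero this
    have hden : (0 : ℝ) < (c.den : ℝ) := by exact_mod_cast c.den_pos
    have h2 : Real.log (c.num.natAbs : ℝ) - Real.log c.den ≤ g6h 𝒜 (algebraMap ℚ Kb c) none := by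
      unfold g6h
      rw [𝒜.arch, ← Real.log_div hnum.ne' hden.ne']
      apply Real.log_le_log (div_pos hnum hden)
      refine le_trans (le_of_eq ?_) (le_max_right _ _)
      have h3 : (c : ℝ) = (c.num : ℝ) / (c.den : ℝ) := by
        exact_mod_cast (Rat.num_div_den c).symm
      rw [h3, abs_div, abs_of_pos hden, Nat.cast_natAbs]
      push_cast
      rfl
    linarith

theorem finite_rat (𝒜 : AVFam) (B : ℝ) :
    {c : ℚ | Sm (fun v => Real.log (max 1 (𝒜.av v (algebraMap ℚ Kb c)))) ≤ B}.Finite := by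
  obtain ⟨N, hN⟩ := exists_nat_ge (Real.exp B)
  have hfin : ((fun q : ℤ × ℤ => (q.1 : ℚ) / (q.2 : ℚ)) ''
      (Set.Icc (-(N : ℤ)) N ×ˢ Set.Icc (0 : ℤ) N)).Finite :=
    ((Set.finite_Icc _ _).prod (Set.finite_Icc _ _)).image _
  refine hfin.subset ?_
  intro c hc
  have hc' : Sm (g6h 𝒜 (algebraMap ℚ Kb c)) ≤ B := hc
  obtain ⟨h1, h2⟩ := g6_bounds 𝒜 c
  have hden : (c.den : ℝ) ≤ N := by
    have hpos : (0 : ℝ) < (c.den : ℝ) := by exact_mod_cast c.den_pos
    have := (Real.log_le_iff_le_exp hpos).1 (le_trans h1 hc')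
    exact le_trans this hN
  have hnum : (c.num.natAbs : ℝ) ≤ N := by
    by_cases h0 : c = 0
    · rw [h0]
      simp
    · have hpos : (0 : ℝ) < (c.num.natAbs : ℝ) := by
        have : c.num.natAbs ≠ 0 := by
          rw [Int.natAbs_ne_zero]
          exact Rat.num_ne_zero.2 h0
        exact_mod_cast Nat.pos_of_ne_zero this
      have := (Real.log_le_iff_le_exp hpos).1 (le_trans (h2 h0) hc')
      exact le_trans this hN
  have hden' : c.den ≤ N := by exact_mod_cast hden
  have hnum' : c.num.natAbs ≤ N := by exact_mod_cast hnum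
  refine ⟨(c.num, (c.den : ℤ)), ⟨⟨?_, ?_⟩, ⟨?_, ?_⟩⟩, ?_⟩
  · show -(N : ℤ) ≤ c.num
    omega
  · show c.num ≤ (N : ℤ)
    omega
  · show (0 : ℤ) ≤ (c.den : ℤ)
    omega
  · show (c.den : ℤ) ≤ (N : ℤ)
    omega
  · show (c.num : ℚ) / ((c.den : ℤ) : ℚ) = c
    exact_mod_cast Rat.num_div_den c


theorem g6_sub_le (v : AbsoluteValue Kb ℝ) (a b : Kb) {B : ℝ} (ha : v a ≤ B) (hb : v b ≤ B) :
    v (a - b) ≤ MK.tau v * B := by
  by_cases hna : IsNonarchimedean v
  · rw [MK.tau_of_na hna, one_mul, sub_eq_add_neg]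
    refine le_trans (hna _ _) (max_le ha ?_)
    rwa [v.map_neg]
  · rw [MK.tau_of_not_na hna, sub_eq_add_neg]
    have := v.add_le a (-b)
    rw [v.map_neg] at this
    linarith

open Polynomial in
/-- local bound for the coefficients of `∏ (X - a_i)` -/
theorem g6_coeff_le (v : AbsoluteValue Kb ℝ) {α : Type*} (Y : Multiset α) (a : α → Kb) (w : α → ℝ)
    (hw0 : ∀ z, 0 ≤ w z) (hw : ∀ z, v (a z) ≤ Real.exp (w z)) (k : ℕ) :
    v (((Y.map fun z => (Polynomial.X - C (a z) : Kb[X])).prod).coeff k) ≤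
      MK.tau v ^ Y.card * Real.exp ((Y.map w).sum) := by
  induction Y using Multiset.induction_on generalizing k with
  | empty =>
    simp only [Multiset.map_zero, Multiset.prod_zero, Multiset.card_zero, pow_zero,
      Multiset.sum_zero, Real.exp_zero, mul_one, coeff_one]
    split_ifs
    · rw [map_one]
    · rw [map_zero]; exact zero_le_one
  | cons z s ih =>
    rw [Multiset.map_cons, Multiset.prod_cons, Multiset.card_cons, Multiset.map_cons,
      Multiset.sum_cons, Real.exp_add, pow_succ]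
    set Q := (s.map fun z => (Polynomial.X - C (a z) : Kb[X])).prod with hQ
    set M := MK.tau v ^ s.card * Real.exp ((s.map w).sum) with hM
    have hM0 : 0 ≤ M :=
      mul_nonneg (pow_nonneg (le_trans zero_le_one (MK.one_le_tau v)) _) (Real.exp_pos _).le
    have he1 : 1 ≤ Real.exp (w z) := Real.one_le_exp (hw0 z)
    have hB : ∀ k', v (a z * Q.coeff k') ≤ Real.exp (w z) * M := by
      intro k'
      rw [map_mul]
      exact mul_le_mul (hw z) (ih k') (v.nonneg _) (Real.exp_pos _).le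
    have hB' : ∀ k', v (Q.coeff k') ≤ Real.exp (w z) * M := by
      intro k'
      exact le_trans (ih k') (le_mul_of_one_le_left hM0 he1)
    have hgoal : ∀ c : Kb, v c ≤ MK.tau v * (Real.exp (w z) * M) →
        v c ≤ MK.tau v ^ s.card * MK.tau v * (Real.exp (w z) * Real.exp ((s.map w).sum)) := by
      intro c hc
      refine le_trans hc (le_of_eq ?_)
      rw [hM]
      ring
    apply hgoal
    cases k with
    | zero =>
      rw [mul_coeff_zero]
      have h1 : (Polynomial.X - C (a z) : Kb[X]).coeff 0 * Q.coeff 0 = 0 - a z * Q.coeff 0 := by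
        simp
      rw [h1]
      exact g6_sub_le v _ _ (by rw [map_zero]; exact mul_nonneg (Real.exp_pos _).le hM0) (hB 0)
    | succ k =>
      rw [coeff_X_sub_C_mul]
      exact g6_sub_le v _ _ (hB' k) (hB (k + 1))

/-- the error term -/
def g6γ (v : Pl) : ℝ := if v = none then Real.log 2 else 0

theorem g6γ_fs : FS g6γ := by
  refine Set.Finite.subset (Set.finite_singleton none) ?_
  intro v hv
  by_contra hne
  exact hv (if_neg hne)

theorem g6γ_sm : Sm g6γ = Real.log 2 := by
  unfold Sm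
  rw [finsum_eq_single g6γ none (fun v hv => if_neg hv)]
  exact if_pos rfl

theorem g6_log_tau (𝒜 : AVFam) (v : Pl) :
    0 ≤ Real.log (MK.tau (𝒜.av v)) ∧ Real.log (MK.tau (𝒜.av v)) ≤ g6γ v := by
  refine ⟨Real.log_nonneg (MK.one_le_tau _), ?_⟩
  cases v with
  | none =>
    unfold g6γ
    rw [if_pos rfl]
    exact Real.log_le_log (lt_of_lt_of_le one_pos (MK.one_le_tau _)) (MK.tau_le_two _)
  | some p =>
    rw [MK.tau_of_na (𝒜.na p), Real.log_one]
    unfold g6γ
    rw [if_neg (by simp)]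

namespace HtData

variable (D : HtData 𝒜 X Γ)

open Polynomial in
theorem g6_poly (n : ℕ) (B : ℝ) (Y : Multiset X) (hst : Stab Y) (hcard : Y.card ≤ n)
    (hh : D.hh Y ≤ B) (j : Fin D.r) :
    ∃ Q : ℚ[X], Q.natDegree ≤ n ∧
      (∀ i, Sm (fun v => Real.log (max 1 (𝒜.av v (algebraMap ℚ Kb (Q.coeff i))))) ≤
        n * Real.log 2 + B) ∧
      Q.map (algebraMap ℚ Kb) = (Y.map fun z => (Polynomial.X - C (D.co z j) : Kb[X])).prod := by
  set P : Kb[X] := (Y.map fun z => (Polynomial.X - C (D.co z j) : Kb[X])).prod with hP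
  have hfix : ∀ σ : GQ, P.map (σ : Kb →+* Kb) = P := by
    intro σ
    rw [hP, Polynomial.map_multiset_prod, Multiset.map_map]
    conv_rhs => rw [← hst σ, Multiset.map_map]
    congr 1
    apply Multiset.map_congr rfl
    intro z _
    simp only [Function.comp_apply, Polynomial.map_sub, Polynomial.map_X, Polynomial.map_C]
    congr 2
    exact D.co_smul σ z j
  have hlift : P ∈ Polynomial.lifts (algebraMap ℚ Kb) := by
    rw [Polynomial.lifts_iff_coeff_lifts]
    intro k
    obtain ⟨q, hq⟩ := exists_rat_of_fixed (P.coeff k) (fun σ => by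
      have := congrArg (fun p => p.coeff k) (hfix σ)
      simp only [Polynomial.coeff_map] at this
      exact this)
    exact ⟨q, hq⟩
  obtain ⟨Q, hQ⟩ := (Polynomial.mem_lifts P).1 hlift
  refine ⟨Q, ?_, ?_, hQ⟩
  · have h1 : Q.natDegree = P.natDegree := by
      rw [← hQ, Polynomial.natDegree_map]
    rw [h1, hP]
    have h2 := Polynomial.natDegree_multiset_prod_X_sub_C_eq_card (Y.map fun z => D.co z j)
    rw [Multiset.map_map, Multiset.card_map] at h2
    have h3 : ((fun a => (Polynomial.X - C a : Kb[X])) ∘ fun z => D.co z j) =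
        fun z => (Polynomial.X - C (D.co z j) : Kb[X]) := rfl
    rw [h3] at h2
    rw [h2]
    exact hcard
  · intro i
    have hc : algebraMap ℚ Kb (Q.coeff i) = P.coeff i := by
      rw [← hQ, Polynomial.coeff_map]
    rw [hc]
    have hloc : ∀ v, Real.log (max 1 (𝒜.av v (P.coeff i))) ≤
        n * g6γ v + (Y.map fun z => D.nx v z).sum := by
      intro v
      have h1 := g6_coeff_le (𝒜.av v) Y (fun z => D.co z j) (fun z => D.nx v z)
        (fun z => D.nx_nonneg v z) (fun z => D.co_le v z j) i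
      have hτ := MK.one_le_tau (𝒜.av v)
      have hsum : 0 ≤ (Y.map fun z => D.nx v z).sum :=
        Multiset.sum_nonneg (by
          intro x hx
          obtain ⟨z, -, rfl⟩ := Multiset.mem_map.1 hx
          exact D.nx_nonneg v z)
      have hM1 : 1 ≤ MK.tau (𝒜.av v) ^ Y.card * Real.exp ((Y.map fun z => D.nx v z).sum) :=
        one_le_mul_of_one_le_of_one_le (one_le_pow₀ hτ) (Real.one_le_exp hsum)
      have h2 : max 1 (𝒜.av v (P.coeff i)) ≤
          MK.tau (𝒜.av v) ^ Y.card * Real.exp ((Y.map fun z => D.nx v z).sum) := max_le hM1 h1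
      have h3 := Real.log_le_log (lt_of_lt_of_le one_pos (le_max_left _ _)) h2
      rw [Real.log_mul (pow_pos (lt_of_lt_of_le one_pos hτ) _).ne' (Real.exp_pos _).ne',
        Real.log_exp, Real.log_pow] at h3
      obtain ⟨h4, h5⟩ := g6_log_tau 𝒜 v
      have h6 : (Y.card : ℝ) * Real.log (MK.tau (𝒜.av v)) ≤ n * g6γ v :=
        mul_le_mul (by exact_mod_cast hcard) h5 h4 (Nat.cast_nonneg _)
      linarith
    have hfs1 : FS (fun v => (Y.map fun z => D.nx v z).sum) := FS.msum Y fun z _ => D.nx_fs z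
    have hfs2 : FS (fun v => (n : ℝ) * g6γ v) := FS.const_mul _ g6γ_fs
    have h7 := Sm_le (g6h_fs 𝒜 (P.coeff i)) (hfs2.add hfs1) hloc
    rw [Sm_add hfs2 hfs1, Sm_const_mul _ g6γ_fs, g6γ_sm, Sm_msum Y fun z _ => D.nx_fs z] at h7
    have h8 : (Y.map fun z => Sm fun v => D.nx v z).sum = D.hh Y := rfl
    rw [h8] at h7
    have h9 : Sm (fun v => Real.log (max 1 (𝒜.av v (P.coeff i)))) = Sm (g6h 𝒜 (P.coeff i)) := rfl
    rw [h9]
    linarith

theorem g6 (n : ℕ) (B : ℝ) : {Y : Multiset X | Stab Y ∧ Y.card ≤ n ∧ D.hh Y ≤ B}.Finite := by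
  classical
  have hT := finite_rat 𝒜 (n * Real.log 2 + B)
  have hR := Polynomial.bUnion_roots_finite (algebraMap ℚ Kb) n hT
  set R : Set Kb := ⋃ (f : Polynomial ℚ) (_ : f.natDegree ≤ n ∧ ∀ i, f.coeff i ∈
    {c : ℚ | Sm (fun v => Real.log (max 1 (𝒜.av v (algebraMap ℚ Kb c)))) ≤ n * Real.log 2 + B}),
        ((f.map (algebraMap ℚ Kb)).roots.toFinset : Set Kb) with hRdef
  have hX0 : {z : X | ∀ j, D.co z j ∈ R}.Finite :=
    (Set.Finite.pi' fun _ : Fin D.r => hR).preimage D.co_inj.injOn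
  have hfinal : {Y : Multiset X | Y.card ≤ n ∧ ∀ z ∈ Y, z ∈ hX0.toFinset}.Finite := by
    refine (Set.finite_Icc (0 : Multiset X) (n • hX0.toFinset.val)).subset ?_
    rintro Y ⟨hcard, hY⟩
    refine ⟨Multiset.zero_le _, ?_⟩
    rw [Multiset.le_iff_count]
    intro z
    rw [Multiset.count_nsmul]
    by_cases hz : z ∈ Y
    · have h1 : Multiset.count z hX0.toFinset.val = 1 :=
        Multiset.count_eq_one_of_mem hX0.toFinset.nodup (hY z hz)
      rw [h1, mul_one]
      exact le_trans (Multiset.count_le_card z Y) hcard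
    · rw [Multiset.count_eq_zero_of_notMem hz]
      exact Nat.zero_le _
  refine hfinal.subset ?_
  rintro Y ⟨hst, hcard, hh⟩
  refine ⟨hcard, fun z hz => ?_⟩
  rw [Set.Finite.mem_toFinset]
  intro j
  obtain ⟨Q, hQ1, hQ2, hQ3⟩ := D.g6_poly n B Y hst hcard hh j
  rw [hRdef]
  simp only [Set.mem_iUnion]
  refine ⟨Q, ⟨hQ1, hQ2⟩, ?_⟩
  rw [hQ3, Finset.mem_coe, Multiset.mem_toFinset]
  have h1 := Polynomial.roots_multiset_prod_X_sub_C (Y.map fun z => D.co z j)
  rw [Multiset.map_map] at h1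
  have h2 : ((fun a => (Polynomial.X - Polynomial.C a : Polynomial Kb)) ∘ fun z => D.co z j) =
      fun z => (Polynomial.X - Polynomial.C (D.co z j) : Polynomial Kb) := rfl
  rw [h2] at h1
  rw [h1]
  exact Multiset.mem_map_of_mem _ hz

end HtData

end Fermat.Agent.S17.Glob
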