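/-
S17 / GLOB / Main     key [S17/G-NORTH]     (imports Bet, G4, G5, G6)

north.  `β` computes `B` on representatives.  Fix `Bd`.  `m1` from `D.gen`.  Constants: Cβ (`hβ (m1 n0)`), Cgl (`gl (m1 n0)`), C5 (`g5 m1`), C4' (`th_ge ((m1-1) n0)`), C4 (`g4 n0 n0`), e = dW n0 - n0 > 0.
 For `c` with `β c c ≤ Bd`:  `Y` := `D.rep c ∅`;  `s'` := `D.gen` through `Y`;  `T = (Z m1 s').toFinset`, `T.val = Z m1 s'`, `Y ⊆ T`, `Z' = T \ Y` (stable, card (m1-1) n0, oo ∉), `T = Y ∪ Z'`;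
 `Y2` := `D.rep c T`  (disjoint from `T`).     cl Y + cl Z' = cl T = 0, so cl (Z' + Y2) = 0 = cl 0.
   gl (T1 = Z' + Y2, T2 = 0, Y' = Y):   |B(Z',Y) + B(Y2,Y)| ≤ Cgl         (`B_add_left`, `B_zero_left`)
   hβ:  |β c c - B(Y,Y2)| ≤ Cβ
   Th_union:  Th T = Th Y + Th Z' + B(Y,Z'),   Th T ≤ C5,   Th Z' ≥ - C4'
   ⟹ Th Y ≤ C5 + C4' - B(Y,Z') ≤ C5 + C4' + Cgl + B(Y2,Y) ≤ C5 + C4' + Cgl + Cβ + Bd.
   g4 (m = d = n0): `s`, `Zr = Z n0 s - Y`,  e hh Zr ≤ Th Y + C4;  `Zr` stable (`Stab.sub`), card ≤ n0 n0, cl Zr = cl (Z s) - cl Y = - c.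
 So `c ∈ image (fun Zr => - cl Zr)` of the finite set `g6 (n0 n0) ((C5 + C4' + Cgl + Cβ + Bd + C4)/e)`; conclude with `Set.Finite.subset` + injectivity of `Subtype.val : Γ → J`.
main = exists_beta + north.
-/
import Fermat.Agent.S17.Glob.Bet
import Fermat.Agent.S17.Glob.G4
import Fermat.Agent.S17.Glob.G5
import Fermat.Agent.S17.Glob.G6

set_option autoImplicit false

noncomputable section

namespace Fermat.Agent.S17.Glob

variable {𝒜 : AVFam} {X : Type} [MulAction GQ X] {J : Type} [AddCommGroup J] {Γ : AddSubgroup J}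

namespace HtData

variable (D : HtData 𝒜 X Γ)

theorem north {β : Γ → Γ → ℝ} (hβ : D.Computes β) (Bd : ℝ) : {c : Γ | β c c ≤ Bd}.Finite := by
  classical
  obtain ⟨m1, hm1, hgen⟩ := D.gen
  have hn0 : 0 < D.n0 := lt_of_le_of_lt (Nat.zero_le _) D.hg
  obtain ⟨Cβ, hCβ⟩ := hβ (m1 * D.n0)
  obtain ⟨Cgl, hCgl⟩ := D.gl (m1 * D.n0)
  obtain ⟨C5, hC5⟩ := D.g5 m1 (by omega)
  obtain ⟨C4', hC4'⟩ := D.th_ge ((m1 - 1) * D.n0)
  obtain ⟨C4, hC4⟩ := D.g4 D.n0 D.n0 le_rfl hn0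
  have he : (0 : ℝ) < (D.dW D.n0 : ℝ) - D.n0 := by
    have h1 := D.dW_gt D.n0 D.n0 le_rfl hn0
    have h2 : (D.n0 : ℝ) < D.dW D.n0 := by exact_mod_cast h1
    linarith
  have hfin := D.g6 (D.n0 * D.n0) ((C5 + C4' + Cgl + Cβ + Bd + C4) / ((D.dW D.n0 : ℝ) - D.n0))
  have hfin2 := hfin.image (fun Zr => - D.cl Zr)
  refine Set.Finite.subset (hfin2.preimage (Subtype.val_injective.injOn)) ?_
  intro c hc
  have hc' : β c c ≤ Bd := hc
  obtain ⟨Y, hYs, hYc, hYoo, -, hYcl⟩ := D.rep c c.2 ∅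
  obtain ⟨s', hs'0, hnd, hoo, hYle⟩ := hgen Y hYs hYc hYoo
  obtain ⟨T, hT⟩ : ∃ T : Finset X, T = (D.Z m1 s').toFinset := ⟨_, rfl⟩
  have hTval : T.val = D.Z m1 s' := by
    rw [hT, Multiset.toFinset_val, Multiset.dedup_eq_self.mpr hnd]
  have hTs : Stab T.val := by rw [hTval]; exact D.Z_stab m1 s' hs'0
  have hYT : Y ⊆ T := by
    intro x hx
    rw [hT, Multiset.mem_toFinset]
    exact Multiset.mem_of_le hYle hx
  obtain ⟨Z', hZ'⟩ : ∃ Z' : Finset X, Z' = T \ Y := ⟨_, rfl⟩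
  have hZ's : Stab Z'.val := by rw [hZ']; exact Stab.sdiff hTs hYs
  have hTu : Y ∪ Z' = T := by rw [hZ', Finset.union_sdiff_of_subset hYT]
  have hdYZ : Disjoint Y Z' := by rw [hZ']; exact Finset.disjoint_sdiff
  have hTcard : T.card = m1 * D.n0 := by
    rw [Finset.card_def, hTval, D.Z_card m1 s' hs'0]
  have hZ'card : Z'.card = (m1 - 1) * D.n0 := by
    rw [hZ', Finset.card_sdiff_of_subset hYT, hTcard, hYc, Nat.sub_mul, one_mul]
  obtain ⟨Y2, hY2s, hY2c, hY2oo, hY2d, hY2cl⟩ := D.rep c c.2 T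
  have hval : T.val = Y.val + Z'.val := by
    rw [← hTu, ← Finset.disjUnion_eq_union _ _ hdYZ, Finset.disjUnion_val]
  have hcl0 : D.cl Y.val + D.cl Z'.val = 0 := by
    rw [← map_add, ← hval, hTval, D.cl_Z m1 s' hs'0]
  have hcl1 : D.cl (Z'.val + Y2.val) = D.cl 0 := by
    rw [map_add, map_zero, hY2cl, ← hYcl, add_comm]; exact hcl0
  have hm1n : D.n0 ≤ m1 * D.n0 := Nat.le_mul_of_pos_left _ (by omega)
  have hdY2Y : Disjoint Y2.val Y.val := by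
    rw [Finset.disjoint_val]
    exact Finset.disjoint_of_subset_right hYT hY2d
  have h1 := hCgl (Z'.val + Y2.val) 0 Y.val (hZ's.add hY2s) Stab.zero hYs
    (by
      rw [Multiset.card_add, Finset.card_val, Finset.card_val, hZ'card, hY2c]
      have : (m1 - 1) * D.n0 + D.n0 = m1 * D.n0 := by
        rw [Nat.sub_mul, one_mul]; omega
      omega)
    (by simp) (by rw [Finset.card_val, hYc]; exact hm1n) hcl1
    (by
      rw [Multiset.disjoint_add_left]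
      exact ⟨by rw [Finset.disjoint_val]; exact hdYZ.symm, hdY2Y⟩)
    (by simp) hYoo
  rw [D.B_add_left, D.B_zero_left, sub_zero, D.B_comm Z'.val, D.B_comm Y2.val] at h1
  have h2 := hCβ c c Y.val Y2.val ⟨hYs, hYoo, hYcl⟩ ⟨hY2s, hY2oo, hY2cl⟩
    (by rw [Finset.card_val, hYc]; exact hm1n) (by rw [Finset.card_val, hY2c]; exact hm1n) hdY2Y.symm
  have h3 := D.Th_union hdYZ
  rw [hTu] at h3
  have h4 : D.Th T ≤ C5 := by rw [hT]; exact hC5 s' hs'0 hnd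
  have h5 := hC4' Z' hZ's hZ'card
  obtain ⟨s, hs0, hle, h6⟩ := hC4 Y hYs hYc
  rw [abs_le] at h1 h2
  have h7 : ((D.dW D.n0 : ℝ) - D.n0) * D.hh (D.Z D.n0 s - Y.val) ≤ C5 + C4' + Cgl + Cβ + Bd + C4 := by
    linarith [h1.1, h1.2, h2.1, h2.2]
  have hclr : D.cl (D.Z D.n0 s - Y.val) = - (c : J) := by
    have h8 : D.cl (D.Z D.n0 s - Y.val + Y.val) = 0 := by
      rw [tsub_add_cancel_of_le hle, D.cl_Z _ s hs0]
    rw [map_add, hYcl] at h8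
    exact eq_neg_of_add_eq_zero_left h8
  refine ⟨D.Z D.n0 s - Y.val, ⟨Stab.sub (D.Z_stab _ s hs0) hYs, ?_, ?_⟩, ?_⟩
  · calc (D.Z D.n0 s - Y.val).card ≤ (D.Z D.n0 s).card := Multiset.card_le_card (Multiset.sub_le_self _ _)
      _ = D.n0 * D.n0 := D.Z_card _ s hs0
  · rw [le_div_iff₀ he]
    linarith
  · show - D.cl (D.Z D.n0 s - Y.val) = (c : J)
    rw [hclr, neg_neg]

end HtData

/-- **the output of block GLOB** -/
theorem main (D : HtData 𝒜 X Γ) : ∃ (β : Γ → Γ → ℝ) (C : ℝ), (∀ a b, β a b = β b a) ∧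
    (∀ a b c, |β (a + b) c - β a c - β b c| ≤ C) ∧ ∀ B : ℝ, {c : Γ | β c c ≤ B}.Finite := by
  obtain ⟨β, h1, ⟨C, h2⟩, h3⟩ := D.exists_beta
  exact ⟨β, C, h1, h2, D.north h3⟩

end Fermat.Agent.S17.Glob
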